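/-
S56lib / Flat / Defs (helper3).  Shared definitions of the flat local condition at `p`.
* `IsBdd L` : Fontaine-boundedness of a subfield `L ⊆ ℚ̄_p`: over EVERY finite unramified base
  `K0` the field `K0(L)` has Fontaine's property `(P_r)` for all `r ^ (p-1) < ‖p‖ ^ p`;
* `Zc ν N` : `ν`-twisted `k`-valued cocycles of a group `G` vanishing on `N`;
* `Zad r N` : trace-zero matrix cocycles for the adjoint action of `r : G →* M₂(k)` vanishing on `N`.
-/
import Fermat.Agent.S56lib.Ram.Fprop
import Fermat.Agent.S55lib.LocalUnr.Padic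
import Fermat.Agent.S56lib.Dict.DualMat

set_option autoImplicit false
set_option linter.unusedSectionVars false

noncomputable section

namespace Fermat.Agent.S56lib.Flat

open Fermat.Agent.S56lib

section Bdd

variable (p : ℕ) [hp : Fact p.Prime]

/-- a subfield of `ℚ̄_p` is unramified over `ℚ_p`: its value group is `‖p‖ ^ ℤ` -/
def IsUnrField (K0 : IntermediateField ℚ_[p] (PadicAlgCl p)) : Prop :=
  ∀ x : K0, x ≠ 0 → ∃ n : ℤ, ‖(x : PadicAlgCl p)‖ = ‖(p : PadicAlgCl p)‖ ^ n

/-- **Fontaine-boundedness**: over every finite unramified base `K0`, the field `K0(L)` has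
Fontaine's property for all `r` with `r ^ (p - 1) < ‖p‖ ^ p`. -/
def IsBdd (L : IntermediateField ℚ_[p] (PadicAlgCl p)) : Prop :=
  ∀ (K0 : IntermediateField ℚ_[p] (PadicAlgCl p)) [FiniteDimensional ℚ_[p] K0],
    IsUnrField p K0 → ∀ r : ℝ, r ^ (p - 1) < ‖(p : PadicAlgCl p)‖ ^ p →
      Ram.Fprop ((p : ℕ) : K0) r (IntermediateField.adjoin K0 (L : Set (PadicAlgCl p)))

variable {p}

theorem adjoin_sup_eq (K0 L L' : IntermediateField ℚ_[p] (PadicAlgCl p)) :
    IntermediateField.adjoin K0 ((L ⊔ L' : IntermediateField ℚ_[p] (PadicAlgCl p)) :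
      Set (PadicAlgCl p)) =
    IntermediateField.adjoin K0 (L : Set (PadicAlgCl p)) ⊔
      IntermediateField.adjoin K0 (L' : Set (PadicAlgCl p)) := by
  apply le_antisymm
  · rw [IntermediateField.adjoin_le_iff]
    have h1 : L ≤ (IntermediateField.adjoin K0 (L : Set (PadicAlgCl p)) ⊔
        IntermediateField.adjoin K0 (L' : Set (PadicAlgCl p))).restrictScalars ℚ_[p] :=
      fun x hx => (le_sup_left : IntermediateField.adjoin K0 (L : Set (PadicAlgCl p)) ≤ _)
        (IntermediateField.subset_adjoin K0 _ hx)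
    have h2 : L' ≤ (IntermediateField.adjoin K0 (L : Set (PadicAlgCl p)) ⊔
        IntermediateField.adjoin K0 (L' : Set (PadicAlgCl p))).restrictScalars ℚ_[p] :=
      fun x hx => (le_sup_right : IntermediateField.adjoin K0 (L' : Set (PadicAlgCl p)) ≤ _)
        (IntermediateField.subset_adjoin K0 _ hx)
    intro x hx
    exact (sup_le h1 h2) hx
  · exact sup_le
      (IntermediateField.adjoin.mono K0 _ _ (fun x hx => (le_sup_left : L ≤ L ⊔ L') hx))
      (IntermediateField.adjoin.mono K0 _ _ (fun x hx => (le_sup_right : L' ≤ L ⊔ L') hx))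

theorem IsBdd.sup {L L' : IntermediateField ℚ_[p] (PadicAlgCl p)} (h : IsBdd p L)
    (h' : IsBdd p L') : IsBdd p (L ⊔ L') := by
  intro K0 _ hK0 r hr
  rw [adjoin_sup_eq]
  exact (h K0 hK0 r hr).sup (h' K0 hK0 r hr)

end Bdd

section Cocycles

variable {G : Type*} [Group G] {k : Type*} [Field k]

/-- `ν`-twisted cocycles `G → k` vanishing on `N` -/
def Zc (ν : G →* kˣ) (N : Subgroup G) : AddSubgroup (G → k) where
  carrier := {z | (∀ g h, z (g * h) = z g + (ν g : k) * z h) ∧ ∀ n ∈ N, z n = 0}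
  zero_mem' := ⟨fun g h => by simp, fun n _ => rfl⟩
  add_mem' := fun {a b} ha hb => ⟨fun g h => by
    simp only [Pi.add_apply]; rw [ha.1, hb.1]; ring, fun n hn => by
    simp only [Pi.add_apply]; rw [ha.2 n hn, hb.2 n hn, add_zero]⟩
  neg_mem' := fun {a} ha => ⟨fun g h => by
    simp only [Pi.neg_apply]; rw [ha.1]; ring, fun n hn => by
    simp only [Pi.neg_apply]; rw [ha.2 n hn, neg_zero]⟩

/-- trace-zero matrix cocycles for the adjoint action of `r`, vanishing on `N` -/
def Zad (r : G →* Matrix (Fin 2) (Fin 2) k) (N : Subgroup G) :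
    AddSubgroup (G → Matrix (Fin 2) (Fin 2) k) where
  carrier := {c | (∀ g, (c g).trace = 0) ∧ Dict.IsCocycle r c ∧ ∀ n ∈ N, c n = 0}
  zero_mem' := ⟨fun g => by simp, fun g h => by simp, fun n _ => rfl⟩
  add_mem' := fun {a b} ha hb => ⟨fun g => by
    simp only [Pi.add_apply, Matrix.trace_add]; rw [ha.1, hb.1, add_zero], fun g h => by
    simp only [Pi.add_apply]; rw [ha.2.1, hb.2.1, mul_add, add_mul]; abel, fun n hn => by
    simp only [Pi.add_apply]; rw [ha.2.2 n hn, hb.2.2 n hn, add_zero]⟩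
  neg_mem' := fun {a} ha => ⟨fun g => by
    simp only [Pi.neg_apply, Matrix.trace_neg]; rw [ha.1, neg_zero], fun g h => by
    simp only [Pi.neg_apply]; rw [ha.2.1, mul_neg, neg_mul]; abel, fun n hn => by
    simp only [Pi.neg_apply]; rw [ha.2.2 n hn, neg_zero]⟩

end Cocycles

end Fermat.Agent.S56lib.Flat
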