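/-
S56lib / Flat / Dev (helper5).  Pure algebra for the flat local condition at `p` (helper3's
dévissage, #2048):

* `finite_Zc`, `finite_Zad`             : finiteness of the cocycle groups (`G ⧸ N`, `k` finite);
* `card_ZadB_le_of_triangular`          : (Dév-R), refined form: for upper triangular `r` with diagonal
  characters `χ₁, χ₂` and `B` a finite subgroup of functions, the cocycles `c ∈ Zad r N` whose lower
  left entry lies in `B` number at most `|Zc (χ₁/χ₂) N| · |Zc 1 N| · |B|`;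
* `card_Zad_le_of_triangular`           : (Dév-R);
* `card_Zad_conj`                       : conjugating `r` does not change `|Zad r N|`;
* `exists_cob_of_mem_Zc`, `exists_cob_of_mem_Zad` : (Avg) averaging: if the index of `N` is invertible
  in `k` then the cocycles vanishing on `N` are coboundaries.
-/
import Mathlib
import Fermat.Agent.S56lib.Flat.Defs

set_option autoImplicit false
set_option linter.unusedSectionVars false

noncomputable section

namespace Fermat.Agent.S56lib.Flat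

open Fermat.Agent.S56lib Matrix

variable {G : Type*} [Group G] {k : Type*} [Field k]

/-! ### Basic API -/

theorem mem_Zc {ν : G →* kˣ} {N : Subgroup G} {z : G → k} :
    z ∈ Zc ν N ↔ (∀ g h, z (g * h) = z g + (ν g : k) * z h) ∧ ∀ n ∈ N, z n = 0 := Iff.rfl

theorem mem_Zad {r : G →* Matrix (Fin 2) (Fin 2) k} {N : Subgroup G}
    {c : G → Matrix (Fin 2) (Fin 2) k} :
    c ∈ Zad r N ↔ (∀ g, (c g).trace = 0) ∧ Dict.IsCocycle r c ∧ ∀ n ∈ N, c n = 0 := Iff.rfl

/-- a cocycle vanishing on `N` is constant on the left cosets of `N` -/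
theorem Zc_apply_mul_of_mem {ν : G →* kˣ} {N : Subgroup G} {z : G → k} (hz : z ∈ Zc ν N)
    (x : G) {n : G} (hn : n ∈ N) : z (x * n) = z x := by
  rw [hz.1, hz.2 n hn, mul_zero, add_zero]

theorem Zad_apply_mul_of_mem {r : G →* Matrix (Fin 2) (Fin 2) k} {N : Subgroup G}
    {c : G → Matrix (Fin 2) (Fin 2) k} (hc : c ∈ Zad r N)
    (x : G) {n : G} (hn : n ∈ N) : c (x * n) = c x := by
  rw [hc.2.1, hc.2.2 n hn, Matrix.mul_zero, Matrix.zero_mul, add_zero]

theorem Zc_apply_out {ν : G →* kˣ} {N : Subgroup G} {z : G → k} (hz : z ∈ Zc ν N) (x : G) :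
    z ((x : G ⧸ N).out) = z x := by
  obtain ⟨h, hh⟩ := QuotientGroup.mk_out_eq_mul N x
  rw [hh, Zc_apply_mul_of_mem hz x h.2]

theorem Zad_apply_out {r : G →* Matrix (Fin 2) (Fin 2) k} {N : Subgroup G}
    {c : G → Matrix (Fin 2) (Fin 2) k} (hc : c ∈ Zad r N) (x : G) :
    c ((x : G ⧸ N).out) = c x := by
  obtain ⟨h, hh⟩ := QuotientGroup.mk_out_eq_mul N x
  rw [hh, Zad_apply_mul_of_mem hc x h.2]

/-! ### Finiteness -/

instance finite_Zc [Finite k] (ν : G →* kˣ) (N : Subgroup G) [Finite (G ⧸ N)] :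
    Finite (Zc ν N) := by
  refine Finite.of_injective (fun (z : Zc ν N) (q : G ⧸ N) => (z : G → k) q.out) ?_
  intro z z' h
  apply Subtype.ext
  funext x
  have := congrFun h (x : G ⧸ N)
  simp only at this
  rw [Zc_apply_out z.2, Zc_apply_out z'.2] at this
  exact this

instance finite_Zad [Finite k] (r : G →* Matrix (Fin 2) (Fin 2) k) (N : Subgroup G)
    [Finite (G ⧸ N)] : Finite (Zad r N) := by
  refine Finite.of_injective
    (fun (c : Zad r N) (q : G ⧸ N) (i j : Fin 2) => (c : G → Matrix (Fin 2) (Fin 2) k) q.out i j) ?_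
  intro c c' h
  apply Subtype.ext
  funext x
  have := congrFun h (x : G ⧸ N)
  simp only at this
  have h2 : (c : G → Matrix (Fin 2) (Fin 2) k) ((x : G ⧸ N).out) =
      (c' : G → Matrix (Fin 2) (Fin 2) k) ((x : G ⧸ N).out) := by
    ext i j
    exact congrFun (congrFun this i) j
  rw [Zad_apply_out c.2, Zad_apply_out c'.2] at h2
  exact h2

/-! ### An abstract counting lemma -/

/-- `|A| ≤ |A'| · |B|` if `f : A → B` is additive and its kernel injects into `A'` -/
theorem card_le_mul_of_ker_inj {A B A' : Type*} [AddCommGroup A] [AddCommGroup B] [Finite B]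
    [Finite A'] (f : A →+ B) (j : f.ker → A') (hj : Function.Injective j) :
    Nat.card A ≤ Nat.card A' * Nat.card B := by
  have h1 := AddSubgroup.card_eq_card_quotient_mul_card_addSubgroup f.ker
  have h2 : Nat.card (A ⧸ f.ker) = Nat.card f.range :=
    Nat.card_congr (QuotientAddGroup.quotientKerEquivRange f).toEquiv
  have h3 : Nat.card f.range ≤ Nat.card B :=
    Nat.card_le_card_of_injective (fun x => (x : B)) Subtype.val_injective
  have h4 : Nat.card f.ker ≤ Nat.card A' := Nat.card_le_card_of_injective j hj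
  rw [h1, h2, mul_comm]
  exact Nat.mul_le_mul h4 h3

/-! ### Entries of `r g * c * r g⁻¹` for upper triangular `r` -/

section Tri

variable (r : G →* Matrix (Fin 2) (Fin 2) k) (htri : ∀ g, r g 1 0 = 0)
  (χ₁ χ₂ : G →* kˣ) (h₁ : ∀ g, r g 0 0 = χ₁ g) (h₂ : ∀ g, r g 1 1 = χ₂ g)

include htri h₁ h₂

theorem tri_conj_10 (g : G) (C : Matrix (Fin 2) (Fin 2) k) :
    (r g * C * r g⁻¹) 1 0 = ((χ₂ / χ₁ : G →* kˣ) g : k) * C 1 0 := by
  rw [Matrix.mul_apply, Fin.sum_univ_two, Matrix.mul_apply, Matrix.mul_apply, Fin.sum_univ_two,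
    Fin.sum_univ_two, htri g, htri g⁻¹, h₂ g, h₁ g⁻¹, map_inv χ₁ g, MonoidHom.div_apply,
    Units.val_div_eq_div_val, Units.val_inv_eq_inv_val]
  field_simp
  ring

theorem tri_conj_00 (g : G) (C : Matrix (Fin 2) (Fin 2) k) (hC : C 1 0 = 0) :
    (r g * C * r g⁻¹) 0 0 = C 0 0 := by
  rw [Matrix.mul_apply, Fin.sum_univ_two, Matrix.mul_apply, Matrix.mul_apply, Fin.sum_univ_two,
    Fin.sum_univ_two, htri g⁻¹, h₁ g, h₁ g⁻¹, map_inv χ₁ g, hC, Units.val_inv_eq_inv_val]
  field_simp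
  ring

theorem tri_conj_01 (g : G) (C : Matrix (Fin 2) (Fin 2) k) (hC : C 1 0 = 0) (hC0 : C 0 0 = 0)
    (hC1 : C 1 1 = 0) :
    (r g * C * r g⁻¹) 0 1 = ((χ₁ / χ₂ : G →* kˣ) g : k) * C 0 1 := by
  rw [Matrix.mul_apply, Fin.sum_univ_two, Matrix.mul_apply, Matrix.mul_apply, Fin.sum_univ_two,
    Fin.sum_univ_two, h₁ g, h₂ g⁻¹, map_inv χ₂ g, hC, hC0, hC1, MonoidHom.div_apply,
    Units.val_div_eq_div_val, Units.val_inv_eq_inv_val]
  field_simp
  ring

end Tri

/-! ### (Dév-R): the count for upper triangular `r` -/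

/-- the `(i, j)` entry, as an additive map on matrix valued functions -/
def entryHom (i j : Fin 2) : (G → Matrix (Fin 2) (Fin 2) k) →+ (G → k) where
  toFun c := fun g => c g i j
  map_zero' := rfl
  map_add' _ _ := rfl

@[simp] theorem entryHom_apply (i j : Fin 2) (c : G → Matrix (Fin 2) (Fin 2) k) (g : G) :
    entryHom i j c g = c g i j := rfl

/-- the cocycles in `Zad r N` whose lower left entry lies in `B` -/
def ZadB (r : G →* Matrix (Fin 2) (Fin 2) k) (N : Subgroup G) (B : AddSubgroup (G → k)) :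
    AddSubgroup (G → Matrix (Fin 2) (Fin 2) k) :=
  Zad r N ⊓ B.comap (entryHom 1 0)

theorem mem_ZadB {r : G →* Matrix (Fin 2) (Fin 2) k} {N : Subgroup G} {B : AddSubgroup (G → k)}
    {c : G → Matrix (Fin 2) (Fin 2) k} :
    c ∈ ZadB r N B ↔ c ∈ Zad r N ∧ (fun g => c g 1 0) ∈ B := Iff.rfl

instance finite_ZadB [Finite k] (r : G →* Matrix (Fin 2) (Fin 2) k) (N : Subgroup G)
    [Finite (G ⧸ N)] (B : AddSubgroup (G → k)) : Finite (ZadB r N B) :=
  Finite.of_injective (fun c : ZadB r N B => (⟨c.1, c.2.1⟩ : Zad r N))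
    (fun c c' h => Subtype.ext (congrArg (fun x : Zad r N => (x : G → Matrix (Fin 2) (Fin 2) k)) h))

section Count

variable (r : G →* Matrix (Fin 2) (Fin 2) k) (N : Subgroup G) (htri : ∀ g, r g 1 0 = 0)
  (χ₁ χ₂ : G →* kˣ) (h₁ : ∀ g, r g 0 0 = χ₁ g) (h₂ : ∀ g, r g 1 1 = χ₂ g)

include htri h₁ h₂

/-- the lower left entry of a cocycle is a `χ₂/χ₁`-cocycle -/
theorem entry10_mem_Zc {c : G → Matrix (Fin 2) (Fin 2) k} (hc : c ∈ Zad r N) :
    entryHom 1 0 c ∈ Zc (χ₂ / χ₁) N := by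
  refine ⟨fun g h => ?_, fun n hn => ?_⟩
  · rw [entryHom_apply, entryHom_apply, entryHom_apply, hc.2.1 g h, Matrix.add_apply,
      tri_conj_10 r htri χ₁ χ₂ h₁ h₂]
  · rw [entryHom_apply, hc.2.2 n hn, Matrix.zero_apply]

/-- if the lower left entry vanishes, the upper left entry is a homomorphism -/
theorem entry00_mem_Zc {c : G → Matrix (Fin 2) (Fin 2) k} (hc : c ∈ Zad r N)
    (h10 : entryHom 1 0 c = 0) : entryHom 0 0 c ∈ Zc (1 : G →* kˣ) N := by
  refine ⟨fun g h => ?_, fun n hn => ?_⟩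
  · have hh : c h 1 0 = 0 := congrFun h10 h
    rw [entryHom_apply, entryHom_apply, entryHom_apply, hc.2.1 g h, Matrix.add_apply,
      tri_conj_00 r htri χ₁ χ₂ h₁ h₂ g (c h) hh, MonoidHom.one_apply, Units.val_one, one_mul]
  · rw [entryHom_apply, hc.2.2 n hn, Matrix.zero_apply]

/-- if the lower left and the diagonal entries vanish, the upper right entry is a
`χ₁/χ₂`-cocycle -/
theorem entry01_mem_Zc {c : G → Matrix (Fin 2) (Fin 2) k} (hc : c ∈ Zad r N)
    (h10 : entryHom 1 0 c = 0) (h00 : entryHom 0 0 c = 0) :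
    entryHom 0 1 c ∈ Zc (χ₁ / χ₂) N := by
  refine ⟨fun g h => ?_, fun n hn => ?_⟩
  · have hh : c h 1 0 = 0 := congrFun h10 h
    have hh0 : c h 0 0 = 0 := congrFun h00 h
    have hh1 : c h 1 1 = 0 := by
      have := hc.1 h
      rw [Matrix.trace_fin_two, hh0, zero_add] at this
      exact this
    rw [entryHom_apply, entryHom_apply, entryHom_apply, hc.2.1 g h, Matrix.add_apply,
      tri_conj_01 r htri χ₁ χ₂ h₁ h₂ g (c h) hh hh0 hh1]
  · rw [entryHom_apply, hc.2.2 n hn, Matrix.zero_apply]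

/-- **(Dév-R), refined form.** -/
theorem card_ZadB_le_of_triangular [Finite k] [Finite (G ⧸ N)] (B : AddSubgroup (G → k))
    [Finite B] :
    Nat.card (ZadB r N B) ≤
      Nat.card (Zc (χ₁ / χ₂) N) * Nat.card (Zc (1 : G →* kˣ) N) * Nat.card B := by
  classical
  -- the three steps of the filtration
  let A₂ : AddSubgroup (G → Matrix (Fin 2) (Fin 2) k) := Zad r N ⊓ (entryHom 1 0).ker
  let A₁ : AddSubgroup (G → Matrix (Fin 2) (Fin 2) k) :=
    Zad r N ⊓ (entryHom 1 0).ker ⊓ (entryHom 0 0).ker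
  haveI : Finite A₂ := Finite.of_injective (fun c : A₂ => (⟨c.1, c.2.1⟩ : Zad r N))
    (fun c c' h => Subtype.ext
      (congrArg (fun x : Zad r N => (x : G → Matrix (Fin 2) (Fin 2) k)) h))
  haveI : Finite A₁ := Finite.of_injective (fun c : A₁ => (⟨c.1, c.2.1.1⟩ : Zad r N))
    (fun c c' h => Subtype.ext
      (congrArg (fun x : Zad r N => (x : G → Matrix (Fin 2) (Fin 2) k)) h))
  -- step 3
  let f₃ : ZadB r N B →+ B :=
    ((entryHom 1 0).comp (ZadB r N B).subtype).codRestrict B (fun c => c.2.2)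
  have e₃ : Nat.card (ZadB r N B) ≤ Nat.card A₂ * Nat.card B := by
    refine card_le_mul_of_ker_inj f₃
      (fun c => (⟨(c.1 : G → Matrix (Fin 2) (Fin 2) k), c.1.2.1, ?_⟩ : A₂)) ?_
    · have := AddMonoidHom.mem_ker.1 c.2
      show entryHom 1 0 (c.1 : G → Matrix (Fin 2) (Fin 2) k) = 0
      exact congrArg (fun x : B => (x : G → k)) this
    · intro c c' h
      apply Subtype.ext
      apply Subtype.ext
      exact congrArg (fun x : A₂ => (x : G → Matrix (Fin 2) (Fin 2) k)) h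
  -- step 2
  let f₂ : A₂ →+ Zc (1 : G →* kˣ) N :=
    ((entryHom 0 0).comp A₂.subtype).codRestrict (Zc (1 : G →* kˣ) N)
      (fun c => entry00_mem_Zc r N htri χ₁ χ₂ h₁ h₂ c.2.1 (AddMonoidHom.mem_ker.1 c.2.2))
  have e₂ : Nat.card A₂ ≤ Nat.card A₁ * Nat.card (Zc (1 : G →* kˣ) N) := by
    refine card_le_mul_of_ker_inj f₂
      (fun c => (⟨(c.1 : G → Matrix (Fin 2) (Fin 2) k), c.1.2, ?_⟩ : A₁)) ?_
    · have := AddMonoidHom.mem_ker.1 c.2
      show entryHom 0 0 (c.1 : G → Matrix (Fin 2) (Fin 2) k) = 0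
      exact congrArg (fun x : Zc (1 : G →* kˣ) N => (x : G → k)) this
    · intro c c' h
      apply Subtype.ext
      apply Subtype.ext
      exact congrArg (fun x : A₁ => (x : G → Matrix (Fin 2) (Fin 2) k)) h
  -- step 1
  have e₁ : Nat.card A₁ ≤ Nat.card (Zc (χ₁ / χ₂) N) := by
    refine Nat.card_le_card_of_injective
      (fun c : A₁ => (⟨entryHom 0 1 c.1, entry01_mem_Zc r N htri χ₁ χ₂ h₁ h₂ c.2.1.1
        (AddMonoidHom.mem_ker.1 c.2.1.2) (AddMonoidHom.mem_ker.1 c.2.2)⟩ : Zc (χ₁ / χ₂) N)) ?_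
    intro c c' h
    have h01 : entryHom 0 1 c.1 = entryHom 0 1 c'.1 :=
      congrArg (fun x : Zc (χ₁ / χ₂) N => (x : G → k)) h
    have key : ∀ d : A₁, ∀ g, d.1 g 1 0 = 0 ∧ d.1 g 0 0 = 0 ∧ d.1 g 1 1 = 0 := by
      intro d g
      have a := congrFun (AddMonoidHom.mem_ker.1 d.2.1.2) g
      have b := congrFun (AddMonoidHom.mem_ker.1 d.2.2) g
      rw [entryHom_apply, Pi.zero_apply] at a b
      have t := d.2.1.1.1 g
      rw [Matrix.trace_fin_two, b, zero_add] at t
      exact ⟨a, b, t⟩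
    apply Subtype.ext
    funext g
    obtain ⟨a, b, t⟩ := key c g
    obtain ⟨a', b', t'⟩ := key c' g
    have h01g : c.1 g 0 1 = c'.1 g 0 1 := congrFun h01 g
    ext i j
    fin_cases i <;> fin_cases j
    · exact b.trans b'.symm
    · exact h01g
    · exact a.trans a'.symm
    · exact t.trans t'.symm
  calc Nat.card (ZadB r N B) ≤ Nat.card A₂ * Nat.card B := e₃
    _ ≤ (Nat.card A₁ * Nat.card (Zc (1 : G →* kˣ) N)) * Nat.card B :=
        Nat.mul_le_mul_right _ e₂
    _ ≤ (Nat.card (Zc (χ₁ / χ₂) N) * Nat.card (Zc (1 : G →* kˣ) N)) * Nat.card B :=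
        Nat.mul_le_mul_right _ (Nat.mul_le_mul_right _ e₁)

/-- **(Dév-R).** -/
theorem card_Zad_le_of_triangular [Finite k] [Finite (G ⧸ N)] :
    Nat.card (Zad r N) ≤
      Nat.card (Zc (χ₁ / χ₂) N) * Nat.card (Zc (1 : G →* kˣ) N) * Nat.card (Zc (χ₂ / χ₁) N) := by
  refine le_trans ?_ (card_ZadB_le_of_triangular r N htri χ₁ χ₂ h₁ h₂ (Zc (χ₂ / χ₁) N))
  exact Nat.card_le_card_of_injective
    (fun c : Zad r N => (⟨c.1, c.2, entry10_mem_Zc r N htri χ₁ χ₂ h₁ h₂ c.2⟩ :
      ZadB r N (Zc (χ₂ / χ₁) N)))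
    (fun c c' h => Subtype.ext
      (congrArg (fun x : ZadB r N (Zc (χ₂ / χ₁) N) => (x : G → Matrix (Fin 2) (Fin 2) k)) h))

end Count

/-! ### Conjugation invariance -/

section Conj

variable {r r' : G →* Matrix (Fin 2) (Fin 2) k} {N : Subgroup G} {P Q : Matrix (Fin 2) (Fin 2) k}

/-- transport of a cocycle along a conjugation `r' = P r Q` with `Q P = 1 = P Q` -/
theorem conj_mem_Zad (hPQ : P * Q = 1) (hQP : Q * P = 1) (hr' : ∀ g, r' g = P * r g * Q)
    {c : G → Matrix (Fin 2) (Fin 2) k} (hc : c ∈ Zad r N) :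
    (fun g => P * c g * Q) ∈ Zad r' N := by
  refine ⟨fun g => ?_, fun g h => ?_, fun n hn => ?_⟩
  · show (P * c g * Q).trace = 0
    rw [Matrix.trace_mul_cycle, hQP, Matrix.one_mul, hc.1 g]
  · show P * c (g * h) * Q = P * c g * Q + r' g * (P * c h * Q) * r' g⁻¹
    rw [hc.2.1 g h, hr' g, hr' g⁻¹, Matrix.mul_add, Matrix.add_mul]
    congr 1
    calc P * (r g * c h * r g⁻¹) * Q
        = P * r g * (1 : Matrix (Fin 2) (Fin 2) k) * c h * (1 : Matrix (Fin 2) (Fin 2) k)
            * r g⁻¹ * Q := by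
          rw [Matrix.mul_one, Matrix.mul_one]
          simp only [Matrix.mul_assoc]
      _ = P * r g * (Q * P) * c h * (Q * P) * r g⁻¹ * Q := by rw [hQP]
      _ = P * r g * Q * (P * c h * Q) * (P * r g⁻¹ * Q) := by simp only [Matrix.mul_assoc]
  · show P * c n * Q = 0
    rw [hc.2.2 n hn, Matrix.mul_zero, Matrix.zero_mul]

/-- **conjugation invariance** of the cocycle count -/
theorem card_Zad_conj_of_inv (hPQ : P * Q = 1) (hQP : Q * P = 1)
    (hr' : ∀ g, r' g = P * r g * Q) : Nat.card (Zad r' N) = Nat.card (Zad r N) := by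
  have hr : ∀ g, r g = Q * r' g * P := by
    intro g
    rw [hr' g]
    calc r g = (Q * P) * r g * (Q * P) := by rw [hQP, Matrix.one_mul, Matrix.mul_one]
      _ = Q * (P * r g * Q) * P := by simp only [Matrix.mul_assoc]
  have e : Zad r N ≃ Zad r' N :=
    { toFun := fun c => (⟨fun g => P * c.1 g * Q, conj_mem_Zad hPQ hQP hr' c.2⟩ : Zad r' N)
      invFun := fun c => (⟨fun g => Q * c.1 g * P, conj_mem_Zad hQP hPQ hr c.2⟩ : Zad r N)
      left_inv := fun c => by
        apply Subtype.ext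
        funext g
        show Q * (P * c.1 g * Q) * P = c.1 g
        calc Q * (P * c.1 g * Q) * P = (Q * P) * c.1 g * (Q * P) := by
              simp only [Matrix.mul_assoc]
          _ = c.1 g := by rw [hQP, Matrix.one_mul, Matrix.mul_one]
      right_inv := fun c => by
        apply Subtype.ext
        funext g
        show P * (Q * c.1 g * P) * Q = c.1 g
        calc P * (Q * c.1 g * P) * Q = (P * Q) * c.1 g * (P * Q) := by
              simp only [Matrix.mul_assoc]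
          _ = c.1 g := by rw [hPQ, Matrix.one_mul, Matrix.mul_one] }
  exact (Nat.card_congr e).symm

/-- **conjugation invariance**, with `P⁻¹` -/
theorem card_Zad_conj (hP : IsUnit P) (hr' : ∀ g, r' g = P * r g * P⁻¹) :
    Nat.card (Zad r' N) = Nat.card (Zad r N) :=
  card_Zad_conj_of_inv
    (Matrix.mul_nonsing_inv P ((Matrix.isUnit_iff_isUnit_det P).1 hP))
    (Matrix.nonsing_inv_mul P ((Matrix.isUnit_iff_isUnit_det P).1 hP)) hr'

end Conj

/-! ### (Avg): averaging over `G ⧸ N` -/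

section Avg

variable (N : Subgroup G) [Finite (G ⧸ N)]

theorem mk_mul_out (g : G) (q : G ⧸ N) : ((g * q.out : G) : G ⧸ N) = g • q := by
  conv_rhs => rw [← QuotientGroup.out_eq' q]
  rfl

/-- **(Avg)**, scalar form -/
theorem exists_cob_of_mem_Zc (ν : G →* kˣ) (hd : ((Nat.card (G ⧸ N) : ℕ) : k) ≠ 0)
    {z : G → k} (hz : z ∈ Zc ν N) : ∃ a : k, ∀ g, z g = ((ν g : k) - 1) * a := by
  classical
  haveI : Fintype (G ⧸ N) := Fintype.ofFinite _
  set T : k := ∑ q : G ⧸ N, z q.out with hT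
  refine ⟨-((Nat.card (G ⧸ N) : ℕ) : k)⁻¹ * T, fun g => ?_⟩
  have h1 : ∑ q : G ⧸ N, z ((g • q).out) = T :=
    Equiv.sum_comp (MulAction.toPerm g) (fun q : G ⧸ N => z q.out)
  have h2 : ∀ q : G ⧸ N, z ((g • q).out) = z g + (ν g : k) * z q.out := by
    intro q
    rw [← mk_mul_out N g q, Zc_apply_out hz, hz.1]
  have h3 : T = ((Nat.card (G ⧸ N) : ℕ) : k) * z g + (ν g : k) * T := by
    conv_lhs => rw [← h1]
    rw [Finset.sum_congr rfl (fun q _ => h2 q), Finset.sum_add_distrib, Finset.sum_const,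
      Finset.card_univ, ← Finset.mul_sum, nsmul_eq_mul, Nat.card_eq_fintype_card]
  field_simp
  linear_combination -h3

/-- **(Avg)**, matrix form -/
theorem exists_cob_of_mem_Zad (r : G →* Matrix (Fin 2) (Fin 2) k)
    (hd : ((Nat.card (G ⧸ N) : ℕ) : k) ≠ 0)
    {c : G → Matrix (Fin 2) (Fin 2) k} (hc : c ∈ Zad r N) :
    ∃ m : Matrix (Fin 2) (Fin 2) k, m.trace = 0 ∧ ∀ g, c g = r g * m * r g⁻¹ - m := by
  classical
  haveI : Fintype (G ⧸ N) := Fintype.ofFinite _
  set d : k := ((Nat.card (G ⧸ N) : ℕ) : k) with hdd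
  set T : Matrix (Fin 2) (Fin 2) k := ∑ q : G ⧸ N, c q.out with hT
  refine ⟨-(d⁻¹ • T), ?_, fun g => ?_⟩
  · rw [Matrix.trace_neg, Matrix.trace_smul, hT, Matrix.trace_sum,
      Finset.sum_eq_zero (fun q _ => hc.1 q.out), smul_zero, neg_zero]
  have h1 : ∑ q : G ⧸ N, c ((g • q).out) = T :=
    Equiv.sum_comp (MulAction.toPerm g) (fun q : G ⧸ N => c q.out)
  have h2 : ∀ q : G ⧸ N, c ((g • q).out) = c g + r g * c q.out * r g⁻¹ := by
    intro q
    rw [← mk_mul_out N g q, Zad_apply_out hc, hc.2.1]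
  have h3 : T = d • c g + r g * T * r g⁻¹ := by
    conv_lhs => rw [← h1]
    rw [Finset.sum_congr rfl (fun q _ => h2 q), Finset.sum_add_distrib, Finset.sum_const,
      Finset.card_univ, ← Finset.sum_mul, ← Finset.mul_sum, hdd, Nat.card_eq_fintype_card,
      Nat.cast_smul_eq_nsmul]
  have h4 : c g = d⁻¹ • (T - r g * T * r g⁻¹) := by
    have : d • c g = T - r g * T * r g⁻¹ := by
      rw [eq_sub_iff_add_eq]; exact h3.symm
    rw [← this, smul_smul, inv_mul_cancel₀ hd, one_smul]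
  rw [h4, Matrix.mul_neg, Matrix.neg_mul, Matrix.mul_smul, Matrix.smul_mul, smul_sub]
  abel

end Avg

end Fermat.Agent.S56lib.Flat
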