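/-
S56lib / Flat / GoodCases (helper3).
The case split behind `Flat.exists_good`: the local representation `rb ∘ l2g` either has a stable
line (reducible case) or not (irreducible case, `𝒢 = ⊤`).
-/
import Fermat.Agent.S56lib.Flat.Defs
import Fermat.Agent.S56lib.Dict.LiftRep
import Fermat.Agent.S56lib.Kum.Dual

set_option autoImplicit false
set_option linter.unusedSectionVars false
set_option linter.style.haveILetI false

noncomputable section

namespace Fermat.Agent.S56lib.Flat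

open Fermat.Agent.S56lib Fermat.Agent.S56lib.Dict Fermat.Agent.S55lib Fermat.Agent.TeamA Fermat.Agent.TeamA.Rep ExtCitation Matrix

variable {p : ℕ} [hp : Fact p.Prime] {k : Type} [Field k]

/-- the statement "`rb` is good at the flat level `L₀`" (helper4's `Dict.GoodAt`, unfolded) -/
def GoodStmt (p : ℕ) [Fact p.Prime] (rb : GQ →* Matrix (Fin 2) (Fin 2) k)
    (L₀ : IntermediateField ℚ_[p] (PadicAlgCl p)) : Prop :=
  ∃ 𝒢 : AddSubgroup ((PadicAlgCl p ≃ₐ[ℚ_[p]] PadicAlgCl p) → Matrix (Fin 2) (Fin 2) k),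
    (∀ m : Matrix (Fin 2) (Fin 2) k, m.trace = 0 →
      (fun g => rb (localGaloisToGlobal p g) * m * rb (localGaloisToGlobal p g)⁻¹ - m) ∈ 𝒢) ∧
    (∀ (c : GQ → Matrix (Fin 2) (Fin 2) k) (hc : IsCocycle rb c) (hs : IsSmoothCochain rb c),
      (liftRep rb c hc hs).IsFlatAt p → (fun g => c (localGaloisToGlobal p g)) ∈ 𝒢) ∧
    ∀ (L : IntermediateField ℚ_[p] (PadicAlgCl p)) [FiniteDimensional ℚ_[p] L]
      [Normal ℚ_[p] L], L₀ ≤ L → IsBdd p L →
      Nat.card ↥(Zad (rb.comp (localGaloisToGlobal p)) L.fixingSubgroup ⊓ 𝒢) ≤ Nat.card k ^ 4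

/-- the case split -/
theorem goodStmt_of_cases (rb : GQ →* Matrix (Fin 2) (Fin 2) k)
    (L₀ : IntermediateField ℚ_[p] (PadicAlgCl p))
    (hR : ∀ v : Fin 2 → k, v ≠ 0 →
      (∀ g : PadicAlgCl p ≃ₐ[ℚ_[p]] PadicAlgCl p, ∃ c : k,
        rb (localGaloisToGlobal p g) *ᵥ v = c • v) → GoodStmt p rb L₀)
    (hI : (∀ v : Fin 2 → k, v ≠ 0 → ∃ g : PadicAlgCl p ≃ₐ[ℚ_[p]] PadicAlgCl p, ∀ c : k,
        rb (localGaloisToGlobal p g) *ᵥ v ≠ c • v) →
      ∀ (L : IntermediateField ℚ_[p] (PadicAlgCl p)) [FiniteDimensional ℚ_[p] L]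
        [Normal ℚ_[p] L], L₀ ≤ L → IsBdd p L →
        Nat.card ↥(Zad (rb.comp (localGaloisToGlobal p)) L.fixingSubgroup) ≤ Nat.card k ^ 4) :
    GoodStmt p rb L₀ := by
  by_cases h : ∃ v : Fin 2 → k, v ≠ 0 ∧
      ∀ g : PadicAlgCl p ≃ₐ[ℚ_[p]] PadicAlgCl p, ∃ c : k,
        rb (localGaloisToGlobal p g) *ᵥ v = c • v
  · obtain ⟨v, hv, hst⟩ := h
    exact hR v hv hst
  · have hirr : ∀ v : Fin 2 → k, v ≠ 0 → ∃ g : PadicAlgCl p ≃ₐ[ℚ_[p]] PadicAlgCl p, ∀ c : k,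
        rb (localGaloisToGlobal p g) *ᵥ v ≠ c • v := by
      intro v hv
      by_contra hcon
      apply h
      refine ⟨v, hv, fun g => ?_⟩
      by_contra hg
      apply hcon
      exact ⟨g, fun c hc => hg ⟨c, hc⟩⟩
    refine ⟨⊤, fun _ _ => AddSubgroup.mem_top _, fun _ _ _ _ => AddSubgroup.mem_top _, ?_⟩
    intro L _ _ hL hb
    rw [inf_top_eq]
    exact hI hirr L hL hb

end Fermat.Agent.S56lib.Flat
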