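/-
S56lib / Flat / Family (helper3).
From a space `𝓗` of `k`-valued functions on `Γ = Gal(ℚ̄_p/ℚ_p)` which are homomorphisms on `Γ_K`
(`K` tame, `ζ_p ∈ K`), right-invariant under `Γ_L` (`L ⊇ K` with the B4 property) and determined
by their restriction to `Γ_K`, to the abstract Kummer-counting data of `Kum/CountAbs`.
-/
import Fermat.Agent.S56lib.Flat.Defs
import Fermat.Agent.S56lib.Kum.Count
import Fermat.Agent.S56lib.Kum.TameP

set_option autoImplicit false
set_option linter.unusedSectionVars false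
set_option linter.style.haveILetI false

open scoped NormedField Valued NNReal

namespace Fermat.Agent.S56lib.Flat

open Fermat.Agent.S56lib.Kum Fermat.Agent.S55lib Fermat.Agent.S55lib.LocalUnr IsUltrametricDist

variable {p : ℕ} [hp : Fact p.Prime]

/-- the B4 property of the pair `K ≤ L`: `p`-th roots in `L` of elements of `K` are,
up to `p`-th powers of `K`, congruent to `1` modulo `p`. -/
def HasB4 (L K : IntermediateField ℚ_[p] (PadicAlgCl p)) : Prop :=
  ∀ y : PadicAlgCl p, y ∈ L → y ≠ 0 → y ^ p ∈ K →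
    ∃ w ∈ K, w ≠ 0 ∧ ‖y ^ p * w ^ p - 1‖ ≤ ‖((p : ℕ) : PadicAlgCl p)‖

section Functional

variable (p) (k : Type*) [Field k] [Finite k] [CharP k p]

/-- a non-degenerate additive functional `k → 𝔽_p` -/
theorem exists_functional :
    ∃ ℓ : k →+ ZMod p, ∀ x : k, (∀ a : k, ℓ (a * x) = 0) → x = 0 := by
  letI : Algebra (ZMod p) k := ZMod.algebra k p
  haveI : Module.Finite (ZMod p) k := Module.Finite.of_finite
  have hne : Algebra.trace (ZMod p) k ≠ 0 := Algebra.trace_ne_zero (ZMod p) k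
  refine ⟨(Algebra.trace (ZMod p) k).toAddMonoidHom, ?_⟩
  intro x hx
  by_contra hx0
  apply hne
  ext y
  have := hx (y * x⁻¹)
  rw [mul_assoc, inv_mul_cancel₀ hx0, mul_one] at this
  simpa using this

end Functional

section Family

variable {k : Type*} [Field k]
variable (K L : IntermediateField ℚ_[p] (PadicAlgCl p)) [FiniteDimensional ℚ_[p] K]
  [Normal ℚ_[p] K] [FiniteDimensional ℚ_[p] L]

theorem ord_natCast_pos : 0 < ord K ((p : ℕ) : K) := by
  have h0 : ((p : ℕ) : K) ≠ 0 := by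
    have := hp.out.ne_zero
    exact_mod_cast this
  exact (ord_pos_iff h0).2 (norm_natCast_lt_one_padic K)

/-- **the Kummer family of a space of homomorphisms** -/
theorem exists_family (hKL : K ≤ L) {ζ : PadicAlgCl p} (hζ : IsPrimitiveRoot ζ p) (hζK : ζ ∈ K)
    (hB4 : HasB4 L K) (ℓ : k →+ ZMod p) (hℓ : ∀ x : k, (∀ a : k, ℓ (a * x) = 0) → x = 0)
    (𝓗 : Submodule k ((PadicAlgCl p ≃ₐ[ℚ_[p]] PadicAlgCl p) → k))
    (hadd : ∀ f ∈ 𝓗, ∀ g ∈ K.fixingSubgroup, ∀ h ∈ K.fixingSubgroup, f (g * h) = f g + f h)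
    (hinv : ∀ f ∈ 𝓗, ∀ g s, s ∈ L.fixingSubgroup → f (g * s) = f g)
    (hinj : ∀ f ∈ 𝓗, (∀ g ∈ K.fixingSubgroup, f g = 0) → f = 0) :
    ∃ u : 𝓗 → (↥K)ˣ, IsAddModP p u ∧ IsSepModP p k u ∧
      (∀ e : ℕ, (e : ℤ) = ord K ((p : ℕ) : K) → ∀ f, u f ∈ lev K p e) ∧
      ∀ (δ : PadicAlgCl p ≃ₐ[ℚ_[p]] PadicAlgCl p) (n' N : ℕ) (m : k), δ ζ = ζ ^ n' →
        N * n' ≡ 1 [MOD p] →
        (∀ f ∈ 𝓗, ∀ g ∈ K.fixingSubgroup, f (δ⁻¹ * g * δ) = m * f g) →
        IsEquivModP p u (resAut K δ) m N := by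
  set r : 𝓗 → (PadicAlgCl p ≃ₐ[ℚ_[p]] PadicAlgCl p) → k := fun f => f.1 with hr
  obtain ⟨y, u, hfam⟩ := exists_isKumFamily (K := K) (ℓ := ℓ) (r := r) hζ hζK
    (fun f => ⟨L.fixingSubgroup, isOpenSub_fixingSubgroup L, fun g s hs => hinv f.1 f.2 g s hs⟩)
    (fun f g hg h hh => hadd f.1 f.2 g hg h hh)
  have hrsmul : ∀ (a : k) (f : 𝓗), ∀ g ∈ K.fixingSubgroup, r (a • f) g = a * r f g :=
    fun a f g _ => rfl
  refine ⟨u, ?_, ?_, ?_, ?_⟩
  · exact hfam.isAddModP hζ (fun f f' g _ => rfl)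
  · refine hfam.isSepModP hζ hζK hrsmul ?_ hℓ
    intro f hf
    exact Subtype.ext (hinj f.1 f.2 hf)
  · intro e he f
    -- the radical lies in `L`
    have hone : (f.1 : (PadicAlgCl p ≃ₐ[ℚ_[p]] PadicAlgCl p) → k) 1 = 0 := by
      have := hadd f.1 f.2 1 (one_mem _) 1 (one_mem _)
      rw [mul_one] at this
      exact left_eq_add.mp this
    have hvan : ∀ g ∈ L.fixingSubgroup, r f g = 0 := by
      intro g hg
      have := hinv f.1 f.2 1 g hg
      rw [one_mul] at this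
      rw [hr]
      show f.1 g = 0
      rw [this, hone]
    have hyL := hfam.radical_mem hζ L hKL f hvan
    have hyK : y f ^ p ∈ K := by
      rw [hfam.pow f]; exact (u f : K).2
    obtain ⟨w, hwK, hw0, hw⟩ := hB4 (y f) hyL (hfam.ne_zero f) hyK
    have hW0 : (⟨w, hwK⟩ : K) ≠ 0 := fun h0 => hw0 (congrArg Subtype.val h0)
    set W : (↥K)ˣ := Units.mk0 ⟨w, hwK⟩ hW0 with hW
    have hp0 : ((p : ℕ) : K) ≠ 0 := by
      have := hp.out.ne_zero
      exact_mod_cast this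
    have he1 : 1 ≤ e := by
      have := ord_natCast_pos K
      omega
    have hv : u f * W ^ p ∈ princUnits K e := by
      rw [mem_princUnits_of_pos he1]
      have h1 : ‖(((u f * W ^ p : (↥K)ˣ) : K)) - 1‖ = ‖y f ^ p * w ^ p - 1‖ := by
        show ‖(((((u f * W ^ p : (↥K)ˣ) : K)) - 1 : K) : PadicAlgCl p)‖ = _
        rw [hfam.pow f]
        simp [hW]
      have h2 : ‖((p : ℕ) : K)‖ = unifNorm K ^ e := by
        rw [norm_eq_zpow_ord hp0, ← he, zpow_natCast]
      have h3 : ‖((p : ℕ) : K)‖ = ‖((p : ℕ) : PadicAlgCl p)‖ := by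
        show ‖((((p : ℕ) : K)) : PadicAlgCl p)‖ = _
        simp
      rw [h1, ← h2, h3]
      exact hw
    rw [mem_lev]
    refine ⟨u f * W ^ p, hv, W⁻¹, ?_⟩
    rw [inv_pow, mul_inv_cancel_right]
  · intro δ n' N m hδ hnN hconj
    have h1 := hfam.isEquivModP hζ hrsmul δ⁻¹ (n' := n') (N := N) (m := m)
      (by rw [inv_inv]; exact hδ) hnN
      (fun f g hg => by
        have := hconj f.1 f.2 g hg
        rw [inv_inv]
        exact this)
    rw [inv_inv] at h1
    exact h1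

end Family

end Fermat.Agent.S56lib.Flat
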