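/-
S56lib / Flat / Space (helper3).
Counting spaces `𝓗` of homomorphisms on `Γ_K` (`K` tame over `ℚ_p`, `ζ_p ∈ K ⊆ L`, `L` with the
B4 property), in terms of the conjugation multiplier of a tame generator `τ`.
-/
import Fermat.Agent.S56lib.Flat.Family

set_option autoImplicit false
set_option linter.unusedSectionVars false
set_option linter.style.haveILetI false

open scoped NormedField Valued NNReal

namespace Fermat.Agent.S56lib.Flat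

open Fermat.Agent.S56lib.Kum Fermat.Agent.S55lib Fermat.Agent.S55lib.LocalUnr IsUltrametricDist

variable {p : ℕ} [hp : Fact p.Prime]

/-- cyclotomic exponents of elements of `Γ` -/
theorem exists_cycloExp {ζ : PadicAlgCl p} (hζ : IsPrimitiveRoot ζ p)
    (δ : PadicAlgCl p ≃ₐ[ℚ_[p]] PadicAlgCl p) :
    ∃ n N : ℕ, δ ζ = ζ ^ n ∧ n * N ≡ 1 [MOD p] := by
  have h1 : (δ ζ) ^ p = 1 := by rw [← map_pow, hζ.pow_eq_one, map_one]
  obtain ⟨n, hnp, hn⟩ := hζ.eq_pow_of_pow_eq_one h1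
  have hcop : Nat.Coprime n p := by
    rw [Nat.coprime_comm, Nat.Prime.coprime_iff_not_dvd hp.out]
    intro hdvd
    have hn0 : n = 0 := Nat.eq_zero_of_dvd_of_lt hdvd hnp
    rw [hn0, pow_zero] at hn
    have : δ ζ = δ 1 := by rw [← hn, map_one]
    exact hζ.ne_one hp.out.one_lt (δ.injective this)
  obtain ⟨N, -, hN⟩ := Nat.exists_mul_mod_eq_one_of_coprime hcop hp.out.one_lt
  refine ⟨n, N, hn.symm, ?_⟩
  show n * N % p = 1 % p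
  rw [hN, Nat.mod_eq_of_lt hp.out.one_lt]

section Space

variable {k : Type*} [Field k] [Finite k] [CharP k p]
variable (K L : IntermediateField ℚ_[p] (PadicAlgCl p)) [FiniteDimensional ℚ_[p] K]
  [Normal ℚ_[p] K] [FiniteDimensional ℚ_[p] L]

/-- the hypotheses on a space of homomorphisms -/
structure IsHomSpace (𝓗 : Submodule k ((PadicAlgCl p ≃ₐ[ℚ_[p]] PadicAlgCl p) → k)) : Prop where
  add : ∀ f ∈ 𝓗, ∀ g ∈ K.fixingSubgroup, ∀ h ∈ K.fixingSubgroup, f (g * h) = f g + f h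
  inv : ∀ f ∈ 𝓗, ∀ g s, s ∈ L.fixingSubgroup → f (g * s) = f g
  inj : ∀ f ∈ 𝓗, (∀ g ∈ K.fixingSubgroup, f g = 0) → f = 0

/-- `δ` acts on the space by the multiplier `m` -/
def ConjMul (𝓗 : Submodule k ((PadicAlgCl p ≃ₐ[ℚ_[p]] PadicAlgCl p) → k))
    (δ : PadicAlgCl p ≃ₐ[ℚ_[p]] PadicAlgCl p) (m : k) : Prop :=
  ∀ f ∈ 𝓗, ∀ g ∈ K.fixingSubgroup, f (δ⁻¹ * g * δ) = m * f g

variable {K L}

/-- the tame datum: `τ` trivial on the residue field of `K` with `θ` of exact order `e` -/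
structure IsTameGen (K : IntermediateField ℚ_[p] (PadicAlgCl p)) [FiniteDimensional ℚ_[p] K]
    [Normal ℚ_[p] K] (τ : PadicAlgCl p ≃ₐ[ℚ_[p]] PadicAlgCl p) : Prop where
  res : ∀ x, resMap (resAut K τ) (norm_resAut K τ) x = x
  ord : ((orderOf (theta (resAut K τ) (norm_resAut K τ)) : ℕ) : ℤ) = ord K ((p : ℕ) : K)

theorem exists_isTameGen (K : IntermediateField ℚ_[p] (PadicAlgCl p)) [FiniteDimensional ℚ_[p] K]
    [Normal ℚ_[p] K] (hdeg : ¬ p ∣ Module.finrank ℚ_[p] K) :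
    ∃ τ : PadicAlgCl p ≃ₐ[ℚ_[p]] PadicAlgCl p, IsTameGen K τ := by
  obtain ⟨τ, h1, h2⟩ := exists_tame_lift K hdeg
  refine ⟨τ, h1, ?_⟩
  rw [← h2, ← orderOf_units, Units.val_mk0]

variable {𝓗 : Submodule k ((PadicAlgCl p ≃ₐ[ℚ_[p]] PadicAlgCl p) → k)}
  (hKL : K ≤ L) {ζ : PadicAlgCl p} (hζ : IsPrimitiveRoot ζ p) (hζK : ζ ∈ K) (hB4 : HasB4 L K)
  (h𝓗 : IsHomSpace K L 𝓗) {τ : PadicAlgCl p ≃ₐ[ℚ_[p]] PadicAlgCl p} (hτ : IsTameGen K τ)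
  {n N : ℕ} (hn : τ ζ = ζ ^ n) (hnN : n * N ≡ 1 [MOD p])

include hζ in
theorem isPrimitiveRoot_sub : IsPrimitiveRoot (⟨ζ, hζK⟩ : K) p :=
  IsPrimitiveRoot.coe_submonoidClass_iff.1 hζ

theorem resAut_zeta {δ : PadicAlgCl p ≃ₐ[ℚ_[p]] PadicAlgCl p} {n : ℕ} (hn : δ ζ = ζ ^ n) :
    resAut K δ (⟨ζ, hζK⟩ : K) = (⟨ζ, hζK⟩ : K) ^ n := by
  apply Subtype.ext
  rw [coe_resAut]
  simpa using hn

theorem natCast_ne_zero_sub : ((p : ℕ) : K) ≠ 0 := by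
  have := hp.out.ne_zero
  exact_mod_cast this

include hKL hζ hζK hB4 h𝓗 hτ hn hnN

/-- **trivial multiplier**: `#𝓗 ≤ #k` -/
theorem card_space_le_of_trivial (hp2 : p ≠ 2) (hm : ConjMul K 𝓗 τ 1) :
    Nat.card 𝓗 ≤ Nat.card k := by
  obtain ⟨ℓ, hℓ⟩ := exists_functional p k
  obtain ⟨u, ha, hsep, hall, heq⟩ := exists_family K L hKL hζ hζK hB4 ℓ hℓ 𝓗 h𝓗.add h𝓗.inv h𝓗.inj
  have hd := heq τ n N 1 hn (by rwa [mul_comm]) hm
  exact card_le_of_trivial hp.out (norm_natCast_lt_one_padic K) natCast_ne_zero_sub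
    (isPrimitiveRoot_sub hζ hζK) (norm_resAut K τ) hτ.res (resAut_zeta hζK hn) hnN hτ.ord hp2 ha
    hsep hd (hall _ hτ.ord)

/-- **generic tame multiplier**: `m = a ≠ 1` in the prime field, `a ≢ N` ⟹ `𝓗 = 0` -/
theorem space_eq_zero_of_intCast {m : k} {a : ℤ} (hma : m = a) (hm1 : m ≠ 1)
    (haN : ¬ a ≡ N [ZMOD p]) (hm : ConjMul K 𝓗 τ m) (f : 𝓗) : f = 0 := by
  obtain ⟨ℓ, hℓ⟩ := exists_functional p k
  obtain ⟨u, ha, hsep, hall, heq⟩ := exists_family K L hKL hζ hζK hB4 ℓ hℓ 𝓗 h𝓗.add h𝓗.inv h𝓗.inj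
  have hd := heq τ n N m hn (by rwa [mul_comm]) hm
  exact eq_zero_of_intCast hp.out (norm_natCast_lt_one_padic K) natCast_ne_zero_sub
    (isPrimitiveRoot_sub hζ hζK) (norm_resAut K τ) hτ.res (resAut_zeta hζK hn) hnN hτ.ord ha
    hsep hma hm1 haN hd (hall _ hτ.ord) f

/-- **cyclotomic-type multiplier**: `m = a ≠ 1` in the prime field and a Frobenius `φ` acting by a
non-zero multiplier ⟹ `#𝓗 ≤ #k` -/
theorem card_space_le_of_cyclo {m : k} {a : ℤ} (hma : m = a) (hm1 : m ≠ 1)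
    (hm : ConjMul K 𝓗 τ m) {φ : PadicAlgCl p ≃ₐ[ℚ_[p]] PadicAlgCl p}
    (hφ : ∀ x, resMap (resAut K φ) (norm_resAut K φ) x = x ^ p) {mφ : k} (hmφ0 : mφ ≠ 0)
    (hmφ : ConjMul K 𝓗 φ mφ) : Nat.card 𝓗 ≤ Nat.card k := by
  obtain ⟨ℓ, hℓ⟩ := exists_functional p k
  obtain ⟨u, ha, hsep, hall, heq⟩ := exists_family K L hKL hζ hζK hB4 ℓ hℓ 𝓗 h𝓗.add h𝓗.inv h𝓗.inj
  have hd := heq τ n N m hn (by rwa [mul_comm]) hm
  obtain ⟨nφ, Nφ, hnφ, hnNφ⟩ := exists_cycloExp hζ φ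
  have hdφ := heq φ nφ Nφ mφ hnφ (by rwa [mul_comm]) hmφ
  exact card_le_of_cyclo hp.out (norm_natCast_lt_one_padic K) natCast_ne_zero_sub
    (isPrimitiveRoot_sub hζ hζK) (norm_resAut K τ) hτ.res (resAut_zeta hζK hn) hnN hτ.ord ha
    hsep hma hm1 hd (norm_resAut K φ) hφ hmφ0 hdφ (hall _ hτ.ord)

/-- **unramified twist**: trivial tame multiplier but some `δ` (acting as a Frobenius power on
residues) with multiplier `≠ 1` ⟹ `𝓗 = 0` -/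
theorem space_eq_zero_of_frob (hp2 : p ≠ 2) (hm : ConjMul K 𝓗 τ 1)
    {δ : PadicAlgCl p ≃ₐ[ℚ_[p]] PadicAlgCl p} {a : ℕ}
    (hδ : ∀ x, resMap (resAut K δ) (norm_resAut K δ) x = x ^ (p ^ a)) {mδ : k} (hmδ1 : mδ ≠ 1)
    (hmδ : ConjMul K 𝓗 δ mδ) (f : 𝓗) : f = 0 := by
  obtain ⟨ℓ, hℓ⟩ := exists_functional p k
  obtain ⟨u, ha, hsep, hall, heq⟩ := exists_family K L hKL hζ hζK hB4 ℓ hℓ 𝓗 h𝓗.add h𝓗.inv h𝓗.inj
  have hd := heq τ n N 1 hn (by rwa [mul_comm]) hm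
  obtain ⟨nδ, Nδ, hnδ, hnNδ⟩ := exists_cycloExp hζ δ
  have hdδ := heq δ nδ Nδ mδ hnδ (by rwa [mul_comm]) hmδ
  have hp0 : ((p : ℕ) : K) ≠ 0 := natCast_ne_zero_sub
  have hζ' := isPrimitiveRoot_sub hζ hζK
  have hpK := norm_natCast_lt_one_padic K
  refine eq_zero_of_nonMatch_frob hp.out hpK hp0 hζ' hp2 ha hsep (norm_resAut K τ) hτ.res hd
    (orderOf_theta_pos hp.out hpK hp0 hζ' (norm_resAut K τ) hτ.ord)
    (orderOf_theta_lt_topLevel hp.out hpK hp0 hζ' (norm_resAut K τ) hτ.ord).le (hall _ hτ.ord) ?_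
    (norm_resAut K δ) hδ (resAut_zeta hζK hnδ) hnNδ hmδ1 hdδ f
  intro i h1 h2
  refine nonMatch_intCast hp.out hpK hp0 hζ' (norm_resAut K τ) hτ.res (resAut_zeta hζK hn) hnN
    hτ.ord (a := 1) (by simp) ?_ i h1 h2
  intro h
  apply not_modEq_one hp.out hpK hp0 hζ' (norm_resAut K τ) hτ.res (resAut_zeta hζK hn) hnN
    hτ.ord hp2
  have h3 : ((N : ℕ) : ℤ) ≡ ((1 : ℕ) : ℤ) [ZMOD p] := by
    simpa using h.symm
  exact Int.natCast_modEq_iff.1 h3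

end Space

end Fermat.Agent.S56lib.Flat
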