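/-
S56lib / Flat / Char (helper3).
Counting twisted cocycles `Zc ν Γ_L` for characters `ν : Γ → kˣ` trivial on `Γ_K`
(`K` tame, `ζ_p ∈ K ⊆ L`, `L` with the B4 property):
* `card_Zc_one_le`   : `#Zc 1 Γ_L ≤ #k`;
* `card_Zc_le_sq`    : `#Zc ν Γ_L ≤ #k ^ 2`;
* `card_Zc_le`       : `#Zc ν Γ_L ≤ #k` unless `ν = ω̄` on the tame generator.
-/
import Fermat.Agent.S56lib.Flat.Space
import Fermat.Agent.S56lib.Flat.Dev

set_option autoImplicit false
set_option linter.unusedSectionVars false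
set_option linter.style.haveILetI false

open scoped NormedField Valued NNReal

noncomputable section

namespace Fermat.Agent.S56lib.Flat

open Fermat.Agent.S56lib.Kum Fermat.Agent.S55lib Fermat.Agent.S55lib.LocalUnr IsUltrametricDist

variable {p : ℕ} [hp : Fact p.Prime]

section Cut

variable {G : Type*} [Group G] {k : Type*} [Field k]

/-- `Zc ν N` as a `k`-subspace -/
def ZcS (ν : G →* kˣ) (N : Subgroup G) : Submodule k (G → k) :=
  { Zc ν N with
    smul_mem' := fun a z hz => ⟨fun g h => by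
      simp only [Pi.smul_apply, smul_eq_mul]
      rw [hz.1 g h]; ring, fun n hn => by
      simp only [Pi.smul_apply, smul_eq_mul]
      rw [hz.2 n hn, mul_zero]⟩ }

theorem mem_ZcS {ν : G →* kˣ} {N : Subgroup G} {z : G → k} : z ∈ ZcS ν N ↔ z ∈ Zc ν N := Iff.rfl

open Classical in
/-- cut a function down to a subgroup -/
def cut (H : Subgroup G) : (G → k) →ₗ[k] (G → k) where
  toFun h := fun g => if g ∈ H then h g else 0
  map_add' h h' := by
    funext g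
    by_cases hg : g ∈ H <;> simp [hg]
  map_smul' a h := by
    funext g
    by_cases hg : g ∈ H <;> simp [hg]

theorem cut_of_mem {H : Subgroup G} (h : G → k) {g : G} (hg : g ∈ H) : cut H h g = h g := by
  simp [cut, hg]

theorem cut_of_not_mem {H : Subgroup G} (h : G → k) {g : G} (hg : g ∉ H) : cut H h g = 0 := by
  simp [cut, hg]

/-- conjugation formula for cocycles on a subgroup where `ν` is trivial -/
theorem Zc_conj {ν : G →* kˣ} {N : Subgroup G} {z : G → k} (hz : z ∈ Zc ν N) (δ g : G)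
    (hg : ν g = 1) : z (δ⁻¹ * g * δ) = ((ν δ)⁻¹ : kˣ) * z g := by
  have h1 : z 1 = 0 := hz.2 1 (one_mem _)
  have h2 : z (δ⁻¹ * δ) = z δ⁻¹ + ((ν δ⁻¹ : kˣ) : k) * z δ := hz.1 _ _
  rw [inv_mul_cancel, h1] at h2
  rw [mul_assoc, hz.1, hz.1, hg, Units.val_one, one_mul, map_inv]
  rw [map_inv] at h2
  linear_combination -h2

end Cut

section Char

variable {k : Type*} [Field k] [Finite k] [CharP k p]
variable (K L : IntermediateField ℚ_[p] (PadicAlgCl p)) [FiniteDimensional ℚ_[p] K]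
  [Normal ℚ_[p] K] [FiniteDimensional ℚ_[p] L]

/-- the space of restrictions to `Γ_K` of the `ν`-cocycles vanishing on `Γ_L` -/
def charSpace (ν : (PadicAlgCl p ≃ₐ[ℚ_[p]] PadicAlgCl p) →* kˣ) :
    Submodule k ((PadicAlgCl p ≃ₐ[ℚ_[p]] PadicAlgCl p) → k) :=
  (ZcS ν L.fixingSubgroup).map (cut K.fixingSubgroup)

variable {K L} {ν : (PadicAlgCl p ≃ₐ[ℚ_[p]] PadicAlgCl p) →* kˣ}

theorem normal_fixingSubgroup : (K.fixingSubgroup).Normal := by
  refine ⟨fun g hg δ => conj_mem_fixingSubgroup K δ hg⟩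

theorem isHomSpace_charSpace (hKL : K ≤ L) (hνK : ∀ g ∈ K.fixingSubgroup, ν g = 1) :
    IsHomSpace K L (charSpace K L ν) := by
  have hLK : L.fixingSubgroup ≤ K.fixingSubgroup := IntermediateField.fixingSubgroup_antitone hKL
  refine ⟨?_, ?_, ?_⟩
  · rintro _ ⟨z, hz, rfl⟩ g hg h hh
    rw [cut_of_mem _ (mul_mem hg hh), cut_of_mem _ hg, cut_of_mem _ hh, hz.1, hνK g hg,
      Units.val_one, one_mul]
  · rintro _ ⟨z, hz, rfl⟩ g s hs
    by_cases hg : g ∈ K.fixingSubgroup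
    · rw [cut_of_mem _ (mul_mem hg (hLK hs)), cut_of_mem _ hg, hz.1, hz.2 s hs, mul_zero,
        add_zero]
    · have hgs : g * s ∉ K.fixingSubgroup := by
        intro h
        apply hg
        have := mul_mem h (inv_mem (hLK hs))
        rwa [mul_inv_cancel_right] at this
      rw [cut_of_not_mem _ hgs, cut_of_not_mem _ hg]
  · rintro _ ⟨z, hz, rfl⟩ h0
    funext g
    by_cases hg : g ∈ K.fixingSubgroup
    · exact h0 g hg
    · rw [cut_of_not_mem _ hg]; rfl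

theorem conjMul_charSpace (hνK : ∀ g ∈ K.fixingSubgroup, ν g = 1)
    (δ : PadicAlgCl p ≃ₐ[ℚ_[p]] PadicAlgCl p) :
    ConjMul K (charSpace K L ν) δ (((ν δ)⁻¹ : kˣ) : k) := by
  rintro _ ⟨z, hz, rfl⟩ g hg
  have hg' : δ⁻¹ * g * δ ∈ K.fixingSubgroup := by
    have := conj_mem_fixingSubgroup K δ⁻¹ hg
    rwa [inv_inv] at this
  rw [cut_of_mem _ hg', cut_of_mem _ hg]
  exact Zc_conj hz δ g (hνK g hg)

theorem finite_quotient_fixingSubgroup (L : IntermediateField ℚ_[p] (PadicAlgCl p))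
    [FiniteDimensional ℚ_[p] L] :
    Finite ((PadicAlgCl p ≃ₐ[ℚ_[p]] PadicAlgCl p) ⧸ L.fixingSubgroup) := by
  haveI := (isOpenSub_fixingSubgroup L).1
  exact Subgroup.finite_quotient_of_finiteIndex

theorem natCast_index_ne_zero (hdeg : ¬ p ∣ Module.finrank ℚ_[p] K) :
    ((Nat.card ((PadicAlgCl p ≃ₐ[ℚ_[p]] PadicAlgCl p) ⧸ K.fixingSubgroup) : ℕ) : k) ≠ 0 := by
  haveI : IsGalois ℚ_[p] (PadicAlgCl p) := ⟨⟩
  rw [Ne, CharP.cast_eq_zero_iff k p, ← Subgroup.index_eq_card,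
    ← IntermediateField.finrank_eq_fixingSubgroup_index]
  exact hdeg

/-- the map `Zc ν Γ_L → charSpace` -/
def toCharSpace (K L : IntermediateField ℚ_[p] (PadicAlgCl p))
    (ν : (PadicAlgCl p ≃ₐ[ℚ_[p]] PadicAlgCl p) →* kˣ) :
    Zc ν L.fixingSubgroup →+ charSpace K L ν where
  toFun z := ⟨cut K.fixingSubgroup z.1, ⟨z.1, z.2, rfl⟩⟩
  map_zero' := by
    apply Subtype.ext
    exact map_zero (cut K.fixingSubgroup)
  map_add' z z' := by
    apply Subtype.ext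
    exact map_add (cut K.fixingSubgroup) z.1 z'.1

theorem finite_charSpace : Finite (charSpace K L ν) := by
  haveI := finite_quotient_fixingSubgroup L
  haveI : Finite (Zc ν L.fixingSubgroup) := finite_Zc ν L.fixingSubgroup
  refine Finite.of_surjective (toCharSpace K L ν) ?_
  rintro ⟨_, z, hz, rfl⟩
  exact ⟨⟨z, hz⟩, rfl⟩

/-- elements of the kernel are coboundaries -/
theorem exists_cob_of_mem_ker (_hKL : K ≤ L) (hdeg : ¬ p ∣ Module.finrank ℚ_[p] K)
    (z : Zc ν L.fixingSubgroup) (hz : z ∈ (toCharSpace K L ν).ker) :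
    ∃ a : k, ∀ g, z.1 g = ((ν g : k) - 1) * a := by
  haveI := finite_quotient_fixingSubgroup K
  have hzK : z.1 ∈ Zc ν K.fixingSubgroup := by
    refine ⟨z.2.1, fun g hg => ?_⟩
    have h1 : cut K.fixingSubgroup z.1 = 0 := congrArg Subtype.val hz
    have h2 := congrFun h1 g
    rwa [cut_of_mem _ hg] at h2
  exact exists_cob_of_mem_Zc K.fixingSubgroup ν (natCast_index_ne_zero hdeg) hzK

/-- `#Zc ν Γ_L ≤ #k · #charSpace` -/
theorem card_Zc_le_mul (hKL : K ≤ L) (hdeg : ¬ p ∣ Module.finrank ℚ_[p] K) :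
    Nat.card (Zc ν L.fixingSubgroup) ≤ Nat.card k * Nat.card (charSpace K L ν) := by
  classical
  haveI := finite_charSpace (K := K) (L := L) (ν := ν)
  have hex := exists_cob_of_mem_ker (ν := ν) hKL hdeg
  choose a ha using hex
  refine card_le_mul_of_ker_inj (toCharSpace K L ν) (fun z => a z.1 z.2) ?_
  intro z z' h
  apply Subtype.ext
  apply Subtype.ext
  funext g
  rw [ha z.1 z.2 g, ha z'.1 z'.2 g]
  have : a z.1 z.2 = a z'.1 z'.2 := h
  rw [this]

/-- for `ν = 1` the map to the space is injective -/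
theorem card_Zc_one_le_space (hKL : K ≤ L) (hdeg : ¬ p ∣ Module.finrank ℚ_[p] K) :
    Nat.card (Zc (1 : (PadicAlgCl p ≃ₐ[ℚ_[p]] PadicAlgCl p) →* kˣ) L.fixingSubgroup) ≤
      Nat.card (charSpace K L (1 : (PadicAlgCl p ≃ₐ[ℚ_[p]] PadicAlgCl p) →* kˣ)) := by
  haveI := finite_charSpace (K := K) (L := L)
    (ν := (1 : (PadicAlgCl p ≃ₐ[ℚ_[p]] PadicAlgCl p) →* kˣ))
  have h := card_le_mul_of_ker_inj (A' := Unit) (toCharSpace K L
    (1 : (PadicAlgCl p ≃ₐ[ℚ_[p]] PadicAlgCl p) →* kˣ)) (fun _ => ()) ?_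
  · simpa using h
  · intro z z' _
    apply Subtype.ext
    apply Subtype.ext
    funext g
    obtain ⟨a, ha⟩ := exists_cob_of_mem_ker hKL hdeg z.1 z.2
    obtain ⟨a', ha'⟩ := exists_cob_of_mem_ker hKL hdeg z'.1 z'.2
    rw [ha g, ha' g]
    simp

section Counts

variable (hKL : K ≤ L) {ζ : PadicAlgCl p} (hζ : IsPrimitiveRoot ζ p) (hζK : ζ ∈ K)
  (hB4 : HasB4 L K) (hdeg : ¬ p ∣ Module.finrank ℚ_[p] K)
  {τ : PadicAlgCl p ≃ₐ[ℚ_[p]] PadicAlgCl p} (hτ : IsTameGen K τ)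
  {n N : ℕ} (hn : τ ζ = ζ ^ n) (hnN : n * N ≡ 1 [MOD p])

include hKL hζ hζK hB4 hdeg hτ hn hnN

/-- **the trivial character**: `#Hom(Γ/Γ_L, k) ≤ #k` -/
theorem card_Zc_one_le (hp2 : p ≠ 2) :
    Nat.card (Zc (1 : (PadicAlgCl p ≃ₐ[ℚ_[p]] PadicAlgCl p) →* kˣ) L.fixingSubgroup) ≤
      Nat.card k := by
  refine (card_Zc_one_le_space hKL hdeg).trans ?_
  refine card_space_le_of_trivial hKL hζ hζK hB4
    (isHomSpace_charSpace hKL (fun _ _ => rfl)) hτ hn hnN hp2 ?_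
  have := conjMul_charSpace (K := K) (L := L)
    (ν := (1 : (PadicAlgCl p ≃ₐ[ℚ_[p]] PadicAlgCl p) →* kˣ)) (fun _ _ => rfl) τ
  simpa using this

/-- **general bound**: `#Zc ν Γ_L ≤ #k ^ 2` -/
theorem card_Zc_le_sq (hp2 : p ≠ 2) (hνK : ∀ g ∈ K.fixingSubgroup, ν g = 1)
    (hmp : (((ν τ)⁻¹ : kˣ) : k) ^ p = (((ν τ)⁻¹ : kˣ) : k))
    {φ : PadicAlgCl p ≃ₐ[ℚ_[p]] PadicAlgCl p}
    (hφ : ∀ x, resMap (resAut K φ) (norm_resAut K φ) x = x ^ p) :
    Nat.card (Zc ν L.fixingSubgroup) ≤ Nat.card k ^ 2 := by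
  refine (card_Zc_le_mul hKL hdeg).trans ?_
  rw [pow_two]
  refine Nat.mul_le_mul_left _ ?_
  have hsp := isHomSpace_charSpace (ν := ν) hKL hνK
  by_cases hm1 : (((ν τ)⁻¹ : kˣ) : k) = 1
  · refine card_space_le_of_trivial hKL hζ hζK hB4 hsp hτ hn hnN hp2 ?_
    have := conjMul_charSpace (K := K) (L := L) hνK τ
    rwa [hm1] at this
  · obtain ⟨a, ha⟩ := exists_intCast_of_pow_eq_self p hmp
    exact card_space_le_of_cyclo hKL hζ hζK hB4 hsp hτ hn hnN ha hm1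
      (conjMul_charSpace hνK τ) hφ (Units.ne_zero _) (conjMul_charSpace hνK φ)

/-- **sharp bound**: `#Zc ν Γ_L ≤ #k` unless `ν τ = ω̄ τ` -/
theorem card_Zc_le (hp2 : p ≠ 2) (hνK : ∀ g ∈ K.fixingSubgroup, ν g = 1)
    (hmp : (((ν τ)⁻¹ : kˣ) : k) ^ p = (((ν τ)⁻¹ : kˣ) : k))
    (hfrob : ∀ g : PadicAlgCl p ≃ₐ[ℚ_[p]] PadicAlgCl p, ∃ a : ℕ,
      ∀ x, resMap (resAut K g) (norm_resAut K g) x = x ^ (p ^ a))
    (hne : ((ν τ : kˣ) : k) ≠ (n : k)) :
    Nat.card (Zc ν L.fixingSubgroup) ≤ Nat.card k := by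
  by_cases hν1 : ν = 1
  · subst hν1
    exact card_Zc_one_le hKL hζ hζK hB4 hdeg hτ hn hnN hp2
  refine (card_Zc_le_mul hKL hdeg).trans ?_
  have hsp := isHomSpace_charSpace (ν := ν) hKL hνK
  suffices h : ∀ f : charSpace K L ν, f = 0 by
    haveI : Subsingleton (charSpace K L ν) := ⟨fun f g => by rw [h f, h g]⟩
    rw [Nat.card_of_subsingleton (0 : charSpace K L ν), mul_one]
  by_cases hm1 : (((ν τ)⁻¹ : kˣ) : k) = 1
  · -- unramified twist
    obtain ⟨δ, hδ⟩ : ∃ δ, ν δ ≠ 1 := by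
      by_contra hcon
      simp only [not_exists, not_not] at hcon
      exact hν1 (MonoidHom.ext hcon)
    obtain ⟨a, ha⟩ := hfrob δ
    have hmδ : (((ν δ)⁻¹ : kˣ) : k) ≠ 1 := by
      intro h
      apply hδ
      have : (ν δ)⁻¹ = 1 := Units.ext h
      exact inv_eq_one.1 this
    have hmτ := conjMul_charSpace (K := K) (L := L) hνK τ
    rw [hm1] at hmτ
    exact space_eq_zero_of_frob hKL hζ hζK hB4 hsp hτ hn hnN hp2 hmτ ha hmδ
      (conjMul_charSpace hνK δ)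
  · obtain ⟨a, ha⟩ := exists_intCast_of_pow_eq_self p hmp
    refine space_eq_zero_of_intCast hKL hζ hζK hB4 hsp hτ hn hnN ha hm1 ?_
      (conjMul_charSpace hνK τ)
    intro haN
    apply hne
    have h1 : ((a : ℤ) : k) = ((N : ℤ) : k) := (CharP.intCast_eq_intCast k p).2 haN
    have h2 : ((n : ℕ) : k) * ((N : ℕ) : k) = 1 := by
      have := (CharP.natCast_eq_natCast k p).2 hnN
      simpa using this
    have h3 : (((ν τ)⁻¹ : kˣ) : k) = (N : k) := by
      rw [ha, h1]; simp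
    have h4 : ((ν τ : kˣ) : k) * (N : k) = 1 := by
      rw [← h3, ← Units.val_mul, mul_inv_cancel, Units.val_one]
    have hN0 : ((N : ℕ) : k) ≠ 0 := by
      intro h0
      rw [h0, mul_zero] at h2
      exact zero_ne_one h2
    exact mul_right_cancel₀ hN0 (h4.trans h2.symm)

end Counts

end Char

end Fermat.Agent.S56lib.Flat
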