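/-
S56lib / Flat / Setup (helper3).
The bundled tame set-up `TameSetup K L ζ τ φ n N` (a tame Galois `K ∋ ζ_p` inside a bounded `L`, a
tame generator `τ`, a Frobenius lift `φ`, their relations), the character counts restated for it,
and the count for upper triangular `r` (the reducible case).
-/
import Fermat.Agent.S56lib.Flat.Char

set_option autoImplicit false
set_option linter.unusedSectionVars false
set_option linter.style.haveILetI false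

open scoped NormedField Valued NNReal

noncomputable section

namespace Fermat.Agent.S56lib.Flat

open Fermat.Agent.S56lib.Kum Fermat.Agent.S55lib Fermat.Agent.S55lib.LocalUnr IsUltrametricDist

variable {p : ℕ} [hp : Fact p.Prime]

/-- the tame set-up -/
structure TameSetup (K L : IntermediateField ℚ_[p] (PadicAlgCl p)) [FiniteDimensional ℚ_[p] K]
    [Normal ℚ_[p] K] [FiniteDimensional ℚ_[p] L] (ζ : PadicAlgCl p)
    (τ φ : PadicAlgCl p ≃ₐ[ℚ_[p]] PadicAlgCl p) (n N : ℕ) : Prop where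
  hKL : K ≤ L
  hζ : IsPrimitiveRoot ζ p
  hζK : ζ ∈ K
  hB4 : HasB4 L K
  hdeg : ¬ p ∣ Module.finrank ℚ_[p] K
  hτ : IsTameGen K τ
  hn : τ ζ = ζ ^ n
  hnN : n * N ≡ 1 [MOD p]
  hφ : ∀ x, resMap (resAut K φ) (norm_resAut K φ) x = x ^ p
  hfrob : ∀ g : PadicAlgCl p ≃ₐ[ℚ_[p]] PadicAlgCl p, ∃ a : ℕ,
    ∀ x, resMap (resAut K g) (norm_resAut K g) x = x ^ (p ^ a)
  hgenτ : ∀ g : PadicAlgCl p ≃ₐ[ℚ_[p]] PadicAlgCl p,
    (∀ x, resMap (resAut K g) (norm_resAut K g) x = x) →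
      ∃ j : ℕ, g * (τ ^ j)⁻¹ ∈ K.fixingSubgroup
  hgenφ : ∀ g : PadicAlgCl p ≃ₐ[ℚ_[p]] PadicAlgCl p, ∃ j : ℕ,
    ∀ x, resMap (resAut K (g * (φ ^ j)⁻¹)) (norm_resAut K (g * (φ ^ j)⁻¹)) x = x
  hcomm : φ * τ * φ⁻¹ * (τ ^ p)⁻¹ ∈ K.fixingSubgroup

namespace TameSetup

variable {k : Type*} [Field k] [Finite k] [CharP k p]
variable {K L : IntermediateField ℚ_[p] (PadicAlgCl p)} [FiniteDimensional ℚ_[p] K]
  [Normal ℚ_[p] K] [FiniteDimensional ℚ_[p] L] {ζ : PadicAlgCl p}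
  {τ φ : PadicAlgCl p ≃ₐ[ℚ_[p]] PadicAlgCl p} {n N : ℕ}
  {ν : (PadicAlgCl p ≃ₐ[ℚ_[p]] PadicAlgCl p) →* kˣ}

/-- characters trivial on `Γ_K` take values in `𝔽_p^×` at `τ` -/
theorem apply_pow_p (S : TameSetup K L ζ τ φ n N) (hνK : ∀ g ∈ K.fixingSubgroup, ν g = 1) :
    (ν τ) ^ p = ν τ := by
  have h := hνK _ S.hcomm
  rw [map_mul, map_mul, map_mul, map_inv, map_inv, map_pow] at h
  have h2 : ν φ * ν τ * (ν φ)⁻¹ = ν τ := by
    rw [mul_comm (ν φ), mul_inv_cancel_right]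
  rw [h2] at h
  exact (mul_inv_eq_one.1 h).symm

theorem inv_pow_p (S : TameSetup K L ζ τ φ n N) (hνK : ∀ g ∈ K.fixingSubgroup, ν g = 1) :
    (((ν τ)⁻¹ : kˣ) : k) ^ p = (((ν τ)⁻¹ : kˣ) : k) := by
  rw [← Units.val_pow_eq_pow_val, inv_pow, S.apply_pow_p hνK]

theorem card_Zc_one_le (S : TameSetup K L ζ τ φ n N) (hp2 : p ≠ 2) :
    Nat.card (Zc (1 : (PadicAlgCl p ≃ₐ[ℚ_[p]] PadicAlgCl p) →* kˣ) L.fixingSubgroup) ≤
      Nat.card k :=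
  Flat.card_Zc_one_le S.hKL S.hζ S.hζK S.hB4 S.hdeg S.hτ S.hn S.hnN hp2

theorem card_Zc_le_sq (S : TameSetup K L ζ τ φ n N) (hp2 : p ≠ 2)
    (hνK : ∀ g ∈ K.fixingSubgroup, ν g = 1) :
    Nat.card (Zc ν L.fixingSubgroup) ≤ Nat.card k ^ 2 :=
  Flat.card_Zc_le_sq S.hKL S.hζ S.hζK S.hB4 S.hdeg S.hτ S.hn S.hnN hp2 hνK (S.inv_pow_p hνK) S.hφ

theorem card_Zc_le (S : TameSetup K L ζ τ φ n N) (hp2 : p ≠ 2)
    (hνK : ∀ g ∈ K.fixingSubgroup, ν g = 1) (hne : ((ν τ : kˣ) : k) ≠ (n : k)) :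
    Nat.card (Zc ν L.fixingSubgroup) ≤ Nat.card k :=
  Flat.card_Zc_le S.hKL S.hζ S.hζK S.hB4 S.hdeg S.hτ S.hn S.hnN hp2 hνK (S.inv_pow_p hνK)
    S.hfrob hne

/-- if both `ν` and `ν⁻¹` are cyclotomic on `τ` then `p = 3` -/
theorem eq_three_of_both (S : TameSetup K L ζ τ φ n N) (hp2 : p ≠ 2)
    (h1 : ((ν τ : kˣ) : k) = (n : k)) (h2 : (((ν τ)⁻¹ : kˣ) : k) = (n : k)) : p = 3 := by
  have hpK := norm_natCast_lt_one_padic K
  haveI := charP_residue K hp.out hpK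
  have h3 : ((n : ℕ) : k) ^ 2 = 1 := by
    rw [pow_two]
    nth_rewrite 1 [← h1]
    rw [← h2, ← Units.val_mul, mul_inv_cancel, Units.val_one]
  have h4 : n ^ 2 ≡ 1 [MOD p] := by
    apply (CharP.natCast_eq_natCast k p).1
    push_cast
    exact h3
  have h5 : ((n : ℕ) : 𝓀[K]) ^ 2 = 1 := by
    have := (CharP.natCast_eq_natCast 𝓀[K] p).2 h4
    push_cast at this
    exact this
  have h6 := (natCast_pow_eq_one_iff hp.out hpK natCast_ne_zero_sub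
    (isPrimitiveRoot_sub S.hζ S.hζK) (norm_resAut K τ) S.hτ.res (resAut_zeta S.hζK S.hn)
    S.hτ.ord 2).1 h5
  have h7 := Nat.le_of_dvd (by norm_num) h6
  have := hp.out.two_le
  omega

end TameSetup

section Cob

variable {G : Type*} [Group G] {k : Type*} [Field k]

/-- the coboundary map `d ↦ (g ↦ (ν g - 1) d)` -/
def cobHom (ν : G →* kˣ) : k →+ (G → k) where
  toFun d := fun g => ((ν g : k) - 1) * d
  map_zero' := by funext g; simp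
  map_add' a b := by funext g; simp [mul_add]

/-- the group of `ν`-coboundaries -/
def cobSub (ν : G →* kˣ) : AddSubgroup (G → k) := (cobHom ν).range

theorem mem_cobSub {ν : G →* kˣ} {z : G → k} :
    z ∈ cobSub ν ↔ ∃ d : k, ∀ g, z g = ((ν g : k) - 1) * d := by
  constructor
  · rintro ⟨d, rfl⟩
    exact ⟨d, fun g => rfl⟩
  · rintro ⟨d, hd⟩
    exact ⟨d, by funext g; exact (hd g).symm⟩

instance finite_cobSub [Finite k] (ν : G →* kˣ) : Finite (cobSub ν) :=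
  Finite.of_surjective (fun d : k => (⟨cobHom ν d, ⟨d, rfl⟩⟩ : cobSub ν))
    (by rintro ⟨_, d, rfl⟩; exact ⟨d, rfl⟩)

theorem card_cobSub_le [Finite k] (ν : G →* kˣ) : Nat.card (cobSub ν) ≤ Nat.card k :=
  Nat.card_le_card_of_surjective (fun d : k => (⟨cobHom ν d, ⟨d, rfl⟩⟩ : cobSub ν))
    (by rintro ⟨_, d, rfl⟩; exact ⟨d, rfl⟩)

end Cob

namespace TameSetup

variable {k : Type*} [Field k] [Finite k] [CharP k p]
variable {K L : IntermediateField ℚ_[p] (PadicAlgCl p)} [FiniteDimensional ℚ_[p] K]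
  [Normal ℚ_[p] K] [FiniteDimensional ℚ_[p] L] {ζ : PadicAlgCl p}
  {τ φ : PadicAlgCl p ≃ₐ[ℚ_[p]] PadicAlgCl p} {n N : ℕ}

/-- **the reducible count**, non-exceptional case -/
theorem card_Zad_le_of_triangular (S : TameSetup K L ζ τ φ n N) (hp2 : p ≠ 2)
    (r : (PadicAlgCl p ≃ₐ[ℚ_[p]] PadicAlgCl p) →* Matrix (Fin 2) (Fin 2) k)
    (htri : ∀ g, r g 1 0 = 0) (χ₁ χ₂ : (PadicAlgCl p ≃ₐ[ℚ_[p]] PadicAlgCl p) →* kˣ)
    (h₁ : ∀ g, r g 0 0 = χ₁ g) (h₂ : ∀ g, r g 1 1 = χ₂ g)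
    (hχ₁K : ∀ g ∈ K.fixingSubgroup, χ₁ g = 1) (hχ₂K : ∀ g ∈ K.fixingSubgroup, χ₂ g = 1)
    (hne : ¬ (((((χ₁ / χ₂) τ : kˣ)) : k) = (n : k) ∧ ((((χ₂ / χ₁) τ : kˣ)) : k) = (n : k))) :
    Nat.card (Zad r L.fixingSubgroup) ≤ Nat.card k ^ 4 := by
  haveI := finite_quotient_fixingSubgroup L
  have h := Flat.card_Zad_le_of_triangular r L.fixingSubgroup htri χ₁ χ₂ h₁ h₂
  refine h.trans ?_
  have hK12 : ∀ g ∈ K.fixingSubgroup, (χ₁ / χ₂) g = 1 := fun g hg => by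
    rw [MonoidHom.div_apply, hχ₁K g hg, hχ₂K g hg, div_one]
  have hK21 : ∀ g ∈ K.fixingSubgroup, (χ₂ / χ₁) g = 1 := fun g hg => by
    rw [MonoidHom.div_apply, hχ₁K g hg, hχ₂K g hg, div_one]
  have c1 := S.card_Zc_one_le (k := k) hp2
  by_cases h12 : ((((χ₁ / χ₂) τ : kˣ)) : k) = (n : k)
  · have h21 : ((((χ₂ / χ₁) τ : kˣ)) : k) ≠ (n : k) := fun h' => hne ⟨h12, h'⟩
    have c2 := S.card_Zc_le_sq hp2 hK12
    have c3 := S.card_Zc_le hp2 hK21 h21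
    calc _ ≤ Nat.card k ^ 2 * Nat.card k * Nat.card k :=
          Nat.mul_le_mul (Nat.mul_le_mul c2 c1) c3
      _ = Nat.card k ^ 4 := by ring
  · have c2 := S.card_Zc_le hp2 hK12 h12
    have c3 := S.card_Zc_le_sq hp2 hK21
    calc _ ≤ Nat.card k * Nat.card k * Nat.card k ^ 2 :=
          Nat.mul_le_mul (Nat.mul_le_mul c2 c1) c3
      _ = Nat.card k ^ 4 := by ring

/-- **the reducible count**, refined form (lower left entry a coboundary) -/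
theorem card_ZadB_le_of_triangular (S : TameSetup K L ζ τ φ n N) (hp2 : p ≠ 2)
    (r : (PadicAlgCl p ≃ₐ[ℚ_[p]] PadicAlgCl p) →* Matrix (Fin 2) (Fin 2) k)
    (htri : ∀ g, r g 1 0 = 0) (χ₁ χ₂ : (PadicAlgCl p ≃ₐ[ℚ_[p]] PadicAlgCl p) →* kˣ)
    (h₁ : ∀ g, r g 0 0 = χ₁ g) (h₂ : ∀ g, r g 1 1 = χ₂ g)
    (hχ₁K : ∀ g ∈ K.fixingSubgroup, χ₁ g = 1) (hχ₂K : ∀ g ∈ K.fixingSubgroup, χ₂ g = 1) :
    Nat.card (ZadB r L.fixingSubgroup (cobSub (χ₂ / χ₁))) ≤ Nat.card k ^ 4 := by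
  haveI := finite_quotient_fixingSubgroup L
  have h := Flat.card_ZadB_le_of_triangular r L.fixingSubgroup htri χ₁ χ₂ h₁ h₂
    (cobSub (χ₂ / χ₁))
  refine h.trans ?_
  have hK12 : ∀ g ∈ K.fixingSubgroup, (χ₁ / χ₂) g = 1 := fun g hg => by
    rw [MonoidHom.div_apply, hχ₁K g hg, hχ₂K g hg, div_one]
  have c1 := S.card_Zc_one_le (k := k) hp2
  have c2 := S.card_Zc_le_sq hp2 hK12
  have c3 := card_cobSub_le (χ₂ / χ₁)
  calc _ ≤ Nat.card k ^ 2 * Nat.card k * Nat.card k :=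
        Nat.mul_le_mul (Nat.mul_le_mul c2 c1) c3
    _ = Nat.card k ^ 4 := by ring

end TameSetup

end Fermat.Agent.S56lib.Flat
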