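/-
S56lib / Flat / Good (helper3).
**`Flat.exists_good`**: the final local statement at `p` for the flat deformation condition:
for `rb : G_ℚ → GL₂(k)` with split characteristic polynomials and cyclotomic determinant on
`Γ = Gal(ℚ̄_p/ℚ_p)`, and a flat level `L₀` (finite, normal, Fontaine-bounded, containing `μ_p`,
trivialising `rb|Γ`), there is an additive group `𝒢` of local cochains containing the trace-zero
coboundaries and the restrictions of all flat cocycles, with `#(Zad (rb|Γ) Γ_L ⊓ 𝒢) ≤ #k ^ 4` for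
every flat level `L ⊇ L₀`.

Reducible case: helper9's `exists_good_of_reducible` (Hopf/RCase);
irreducible case: helper6's `exists_good_of_irreducible` (Lift/IrrGood).
-/
import Fermat.Agent.S56lib.Flat.GoodCases
import Fermat.Agent.S56lib.Hopf.RCase
import Fermat.Agent.S56lib.Lift.IrrGood

set_option autoImplicit false
set_option linter.unusedSectionVars false
set_option linter.style.haveILetI false

noncomputable section

namespace Fermat.Agent.S56lib.Flat

open Fermat.Agent.S56lib Fermat.Agent.S56lib.Dict Fermat.Agent.S55lib Fermat.Agent.TeamA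
  Fermat.Agent.TeamA.Rep ExtCitation Matrix Polynomial

variable {p : ℕ} [hp : Fact p.Prime] {k : Type} [Field k]

/-- **the flat local condition at `p` is good** -/
theorem exists_good (hp2 : p ≠ 2) [Finite k] [CharP k p]
    (rb : GQ →* Matrix (Fin 2) (Fin 2) k)
    (hsplit : ∀ g : PadicAlgCl p ≃ₐ[ℚ_[p]] PadicAlgCl p, ∃ α β : k,
      (rb (localGaloisToGlobal p g)).charpoly = (X - C α) * (X - C β))
    (hdet : ∀ g : PadicAlgCl p ≃ₐ[ℚ_[p]] PadicAlgCl p,
      (rb (localGaloisToGlobal p g)).det = ((Tame.cycloN p g : ℕ) : k))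
    (L₀ : IntermediateField ℚ_[p] (PadicAlgCl p)) [FiniteDimensional ℚ_[p] L₀]
    [Normal ℚ_[p] L₀] (hL₀ : IsBdd p L₀)
    (hμ : ∀ ζ : PadicAlgCl p, ζ ^ p = 1 → ζ ∈ L₀)
    (hr : ∀ g ∈ L₀.fixingSubgroup, rb (localGaloisToGlobal p g) = 1) :
    GoodStmt p rb L₀ :=
  goodStmt_of_cases rb L₀
    (fun v hv hst => exists_good_of_reducible hp2 rb hdet L₀ hL₀ hμ hr v hv hst)
    (fun hirr => exists_good_of_irreducible hp2 rb hsplit hdet L₀ hL₀ hμ hr hirr)

end Fermat.Agent.S56lib.Flat
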