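/-
S56lib / Flat / IrrSup (helper3).
The two space-level inputs of the irreducible count (helper2's `card_Zad_le_of_irr`):
* `TameSetup.space_eq_zero_of_neg` : multipliers `(τ : 1, φ : -1)` ⟹ `𝓗 = 0`;
* `TameSetup.card_space_le_of_unitary` : multiplier `m` of `τ` with `m ^ (p+1) = 1`, `m ≠ 1`, and
  `φ * φ` acting trivially ⟹ `#𝓗 ≤ #k`.
-/
import Fermat.Agent.S56lib.Flat.Setup
import Fermat.Agent.S56lib.PT9a.TameStruct
import Fermat.Agent.S56lib.PT9a.Quadratic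

set_option autoImplicit false
set_option linter.unusedSectionVars false
set_option linter.style.haveILetI false

open scoped NormedField Valued NNReal

noncomputable section

namespace Fermat.Agent.S56lib.Flat

open Fermat.Agent.S56lib.Kum Fermat.Agent.S55lib Fermat.Agent.S55lib.LocalUnr IsUltrametricDist
open Fermat.Agent.S56lib.PT9a

variable {p : ℕ} [hp : Fact p.Prime]

namespace TameSetup

variable {k : Type*} [Field k] [Finite k] [CharP k p]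
variable {K L : IntermediateField ℚ_[p] (PadicAlgCl p)} [FiniteDimensional ℚ_[p] K]
  [Normal ℚ_[p] K] [FiniteDimensional ℚ_[p] L] {ζ : PadicAlgCl p}
  {τ φ : PadicAlgCl p ≃ₐ[ℚ_[p]] PadicAlgCl p} {n N : ℕ}
  {𝓗 : Submodule k ((PadicAlgCl p ≃ₐ[ℚ_[p]] PadicAlgCl p) → k)}

theorem neg_one_ne_one (hp2 : p ≠ 2) : (-1 : k) ≠ 1 := by
  intro h
  have h2 : ((2 : ℕ) : k) = 0 := by
    have : (1 : k) + 1 = 0 := by
      nth_rewrite 1 [← h]
      ring
    push_cast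
    rw [← this]
    norm_num
  have h3 := (CharP.cast_eq_zero_iff k p 2).1 h2
  have h4 := (Nat.prime_dvd_prime_iff_eq hp.out Nat.prime_two).1 h3
  exact hp2 h4

/-- **the diagonal component vanishes** -/
theorem space_eq_zero_of_neg (S : TameSetup K L ζ τ φ n N) (hp2 : p ≠ 2)
    (h𝓗 : IsHomSpace K L 𝓗) (hτm : ConjMul K 𝓗 τ 1) (hφm : ConjMul K 𝓗 φ (-1)) :
    ∀ f ∈ 𝓗, f = 0 := by
  intro f hf
  have hφ' : ∀ x, resMap (resAut K φ) (norm_resAut K φ) x = x ^ (p ^ 1) := by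
    intro x; rw [pow_one]; exact S.hφ x
  have := space_eq_zero_of_frob S.hKL S.hζ S.hζK S.hB4 h𝓗 S.hτ S.hn S.hnN hp2 hτm hφ'
    (neg_one_ne_one hp2) hφm ⟨f, hf⟩
  exact congrArg Subtype.val this

/-- `φ * φ` induces `x ↦ x ^ (p ^ 2)` on residues -/
theorem resMap_sq (S : TameSetup K L ζ τ φ n N) (x : 𝓀[K]) :
    resMap (resAut K (φ * φ)) (norm_resAut K (φ * φ)) x = x ^ (p ^ 2) := by
  have h := resG_mul K φ φ x
  unfold resG at h
  rw [h, S.hφ, S.hφ, ← pow_mul, pow_two]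

/-- the prime-field case of the unitary count: `m = -1` -/
theorem space_eq_zero_of_neg_one (S : TameSetup K L ζ τ φ n N) {m : k}
    (hm : m ^ (p + 1) = 1) (hm1 : m ≠ 1) (hmp : m ^ p = m)
    (hexc : ¬ ((-1 : ℤ) ≡ N [ZMOD p]))
    (h𝓗 : IsHomSpace K L 𝓗) (hτm : ConjMul K 𝓗 τ m) (f : 𝓗) : f = 0 := by
  have h1 : m * m = 1 := by
    rw [pow_succ, hmp] at hm
    exact hm
  have h2 : (m - 1) * (m + 1) = 0 := by linear_combination h1
  have h3 : m = ((-1 : ℤ) : k) := by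
    rcases mul_eq_zero.1 h2 with h | h
    · exact absurd (sub_eq_zero.1 h) hm1
    · push_cast
      exact eq_neg_of_add_eq_zero_left h
  exact space_eq_zero_of_intCast S.hKL S.hζ S.hζK S.hB4 h𝓗 S.hτ S.hn S.hnN h3 hm1 hexc hτm f

/-- the quadratic case of the unitary count -/
theorem card_space_le_of_quadratic (S : TameSetup K L ζ τ φ n N) (hp2 : p ≠ 2) {m : k}
    (hm : m ^ (p + 1) = 1) (hmp : m ^ p ≠ m)
    (h𝓗 : IsHomSpace K L 𝓗) (hτm : ConjMul K 𝓗 τ m) (hφφ : ConjMul K 𝓗 (φ * φ) 1) :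
    Nat.card 𝓗 ≤ Nat.card k := by
  obtain ⟨ℓ, hℓ⟩ := exists_functional p k
  obtain ⟨u, ha, hsep, hall, heq⟩ :=
    exists_family K L S.hKL S.hζ S.hζK S.hB4 ℓ hℓ 𝓗 h𝓗.add h𝓗.inv h𝓗.inj
  have hd := heq τ n N m S.hn (by rw [mul_comm]; exact S.hnN) hτm
  obtain ⟨nψ, Nψ, hnψ, hnNψ⟩ := exists_cycloExp S.hζ (φ * φ)
  have hdψ := heq (φ * φ) nψ Nψ 1 hnψ (by rwa [mul_comm]) hφφ
  exact card_le_of_quadratic hp.out (norm_natCast_lt_one_padic K) natCast_ne_zero_sub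
    (isPrimitiveRoot_sub S.hζ S.hζK) (norm_resAut K τ) S.hτ.res (resAut_zeta S.hζK S.hn) S.hnN
    S.hτ.ord hp2 ha hsep hm hmp hd (norm_resAut K (φ * φ)) S.resMap_sq one_ne_zero hdψ
    (hall _ S.hτ.ord)

/-- **the unitary count**: `m ^ (p + 1) = 1`, `m ≠ 1` (and `N ≢ -1` if `m = -1`) -/
theorem card_space_le_of_unitary (S : TameSetup K L ζ τ φ n N) (hp2 : p ≠ 2) {m : k}
    (hm : m ^ (p + 1) = 1) (hm1 : m ≠ 1)
    (hexc : m ^ p = m → ¬ ((-1 : ℤ) ≡ N [ZMOD p]))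
    (h𝓗 : IsHomSpace K L 𝓗) (hτm : ConjMul K 𝓗 τ m) (hφφ : ConjMul K 𝓗 (φ * φ) 1) :
    Nat.card 𝓗 ≤ Nat.card k := by
  by_cases hmp : m ^ p = m
  · have h0 := S.space_eq_zero_of_neg_one hm hm1 hmp (hexc hmp) h𝓗 hτm
    haveI : Subsingleton 𝓗 := ⟨fun f g => by rw [h0 f, h0 g]⟩
    rw [Nat.card_of_subsingleton (0 : 𝓗)]
    exact Nat.card_pos
  · exact S.card_space_le_of_quadratic hp2 hm hmp h𝓗 hτm hφφ

end TameSetup

end Fermat.Agent.S56lib.Flat
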