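/-
S56lib / Flat / Irr (helper3).
The irreducible count: `r τ = diag(α, β)`, `r φ` antidiagonal, `β = α ^ p`, `α = β ^ p`,
`α β = n` ⟹ `#Zad r Γ_L ≤ #k ^ 4`.
-/
import Fermat.Agent.S56lib.Flat.IrrSup
import Fermat.Agent.S56lib.TW.IrrCount

set_option autoImplicit false
set_option linter.unusedSectionVars false
set_option linter.style.haveILetI false

open scoped NormedField Valued NNReal

noncomputable section

namespace Fermat.Agent.S56lib.Flat

open Fermat.Agent.S56lib.Kum Fermat.Agent.S55lib Fermat.Agent.S55lib.LocalUnr IsUltrametricDist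
open Fermat.Agent.S56lib.PT9a

variable {p : ℕ} [hp : Fact p.Prime]

namespace TameSetup

variable {k : Type*} [Field k] [Finite k] [CharP k p]
variable {K L : IntermediateField ℚ_[p] (PadicAlgCl p)} [FiniteDimensional ℚ_[p] K]
  [Normal ℚ_[p] K] [FiniteDimensional ℚ_[p] L] {ζ : PadicAlgCl p}
  {τ φ : PadicAlgCl p ≃ₐ[ℚ_[p]] PadicAlgCl p} {n N : ℕ}

theorem natCast_mul_natCast (S : TameSetup K L ζ τ φ n N) : ((n : ℕ) : k) * ((N : ℕ) : k) = 1 := by
  have := (CharP.natCast_eq_natCast k p).2 S.hnN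
  simpa using this

/-- the multiplier `β / α` is unitary, `≠ 1`, and not exceptional -/
theorem unitary_of_diag (S : TameSetup K L ζ τ φ n N) (hp2 : p ≠ 2) {α β : k} (hαβ : α ≠ β)
    (hβ : β = α ^ p) (hα : α = β ^ p) (hdet : α * β = (n : k)) :
    α ≠ 0 ∧ β ≠ 0 ∧ (β / α) ^ (p + 1) = 1 ∧ β / α ≠ 1 ∧
      ((β / α) ^ p = β / α → ¬ ((-1 : ℤ) ≡ N [ZMOD p])) := by
  have hnN := S.natCast_mul_natCast (k := k)
  have hn0 : ((n : ℕ) : k) ≠ 0 := by
    intro h0
    rw [h0, zero_mul] at hnN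
    exact zero_ne_one hnN
  have hα0 : α ≠ 0 := by
    intro h0
    rw [h0, zero_mul] at hdet
    exact hn0 hdet.symm
  have hβ0 : β ≠ 0 := by
    intro h0
    rw [h0, mul_zero] at hdet
    exact hn0 hdet.symm
  have hpow : (β / α) ^ p = α / β := by
    rw [div_pow, ← hα, ← hβ]
  refine ⟨hα0, hβ0, ?_, ?_, ?_⟩
  · rw [pow_succ, hpow]
    field_simp
  · intro h
    apply hαβ
    field_simp at h
    exact h.symm
  · intro hfix hN
    rw [hpow] at hfix
    have h1 : α * α = β * β := by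
      field_simp at hfix
      linear_combination hfix
    have h2 : (α - β) * (α + β) = 0 := by linear_combination h1
    have h3 : β = -α := by
      rcases mul_eq_zero.1 h2 with h | h
      · exact absurd (sub_eq_zero.1 h) hαβ
      · linear_combination h
    have h4 : ((N : ℕ) : k) = -1 := by
      have := (CharP.intCast_eq_intCast k p).2 hN
      push_cast at this
      exact this.symm
    have h5 : ((n : ℕ) : k) = -1 := by
      rw [h4] at hnN
      linear_combination -hnN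
    have h6 : α * α = 1 := by
      rw [h3, h5] at hdet
      linear_combination -hdet
    have hodd : Odd p := hp.out.odd_of_ne_two hp2
    have h7 : (α - 1) * (α + 1) = 0 := by linear_combination h6
    rcases mul_eq_zero.1 h7 with h | h
    · have hα1 : α = 1 := sub_eq_zero.1 h
      apply hαβ
      rw [hβ, hα1, one_pow]
    · have hα1 : α = -1 := by linear_combination h
      apply hαβ
      rw [hβ, hα1, hodd.neg_one_pow]

/-- **the irreducible count** -/
theorem card_Zad_le_of_irr (S : TameSetup K L ζ τ φ n N) (hp2 : p ≠ 2)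
    (r : (PadicAlgCl p ≃ₐ[ℚ_[p]] PadicAlgCl p) →* Matrix (Fin 2) (Fin 2) k)
    (hrK : ∀ g ∈ K.fixingSubgroup, r g = 1) {α β b c : k} (hαβ : α ≠ β)
    (hτ : r τ = Matrix.diagonal ![α, β]) (hφ : r φ = !![0, b; c, 0])
    (hβ : β = α ^ p) (hα : α = β ^ p) (hdet : α * β = (n : k)) :
    Nat.card (Zad r L.fixingSubgroup) ≤ Nat.card k ^ 4 := by
  obtain ⟨-, -, hm, hm1, hexc⟩ := S.unitary_of_diag hp2 hαβ hβ hα hdet
  exact Flat.card_Zad_le_of_irr K L S.hKL S.hdeg r hrK τ φ hαβ hτ hφ
    (fun 𝓗 h𝓗 h1 h2 => S.space_eq_zero_of_neg hp2 h𝓗 h1 h2)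
    (fun 𝓗 h𝓗 h1 h2 => S.card_space_le_of_unitary hp2 hm hm1 hexc h𝓗 h1 h2)

end TameSetup

end Fermat.Agent.S56lib.Flat
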